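/-
S17lib / DegChain / Interp  (helper6)  — Project G, block DEG, part (P4) = Brill–Noether determinant.

Pure commutative algebra (no curves):

* `exists_interp` : a vector `a` with `a j = q (r j) + det V * e j` (`V` the Vandermonde of `r`) is
  an `O`-combination of the columns `(r j ^ l)_j`, `l < n`  (interpolation with INTEGRAL
  coefficients; the error term is absorbed by the adjugate);
* `det_eq_mul_det_vandermonde` : a matrix whose rows are such combinations has determinant
  `det C * det V`;
* `exists_det_eq_mul` : the packaged statement for a family of ring homomorphisms `ρ j : R → O`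
  (points of a residue disc) and a ring `R` in which every element is a polynomial in `u` modulo
  high powers of `w`.
-/
import Mathlib

set_option autoImplicit false

namespace Fermat.Agent.S17lib.DegChain

open Matrix Polynomial

variable {O : Type*} [CommRing O]

/-- the Vandermonde matrix applied to a vector -/
theorem vandermonde_mulVec {n : ℕ} (r : Fin n → O) (y : Fin n → O) (j : Fin n) :
    (vandermonde r *ᵥ y) j = ∑ l, y l * r j ^ (l : ℕ) := by
  simp only [mulVec, dotProduct, vandermonde_apply]
  exact Finset.sum_congr rfl fun l _ => mul_comm _ _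

/-- multiples of `det V` are integral combinations of the columns of `V` -/
theorem exists_coeff_of_det_mul {n : ℕ} (r : Fin n → O) (e : Fin n → O) :
    ∃ c : Fin n → O, ∀ j, (vandermonde r).det * e j = ∑ l, c l * r j ^ (l : ℕ) := by
  refine ⟨(vandermonde r).adjugate *ᵥ e, fun j => ?_⟩
  rw [← vandermonde_mulVec, mulVec_mulVec, mul_adjugate, smul_mulVec, one_mulVec]
  rfl

/-- values of a polynomial at the nodes are integral combinations of the columns of `V` -/
theorem exists_coeff_of_eval {n : ℕ} (r : Fin n → O) (q : O[X]) :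
    ∃ c : Fin n → O, ∀ j, q.eval (r j) = ∑ l, c l * r j ^ (l : ℕ) := by
  nontriviality O
  set P : O[X] := ∏ j, (X - C (r j)) with hP
  have hPm : P.Monic := monic_prod_of_monic _ _ fun j _ => monic_X_sub_C (r j)
  have hPdeg : P.natDegree = n := by
    rw [hP, natDegree_prod_of_monic _ _ fun j _ => monic_X_sub_C (r j)]
    simp
  have hroot : ∀ j, P.eval (r j) = 0 := by
    intro j
    rw [hP, eval_prod]
    exact Finset.prod_eq_zero (Finset.mem_univ j) (by simp)
  set q₁ := q %ₘ P with hq₁
  have hev : ∀ j, q.eval (r j) = q₁.eval (r j) := by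
    intro j
    conv_lhs => rw [← modByMonic_add_div q P]
    rw [eval_add, eval_mul, hroot j, zero_mul, add_zero]
  rcases Nat.eq_zero_or_pos n with hn | hn
  · subst hn
    exact ⟨fun _ => 0, fun j => j.elim0⟩
  have hdeg : q₁.natDegree < n := by
    have h1 : q₁.degree < P.degree := degree_modByMonic_lt q hPm
    have hP0 : P ≠ 0 := hPm.ne_zero
    rcases eq_or_ne q₁ 0 with h0 | h0
    · rw [h0]; simpa using hn
    · rw [← hPdeg]
      exact natDegree_lt_natDegree h0 h1
  refine ⟨fun l => q₁.coeff l, fun j => ?_⟩
  rw [hev j, eval_eq_sum_range' hdeg, Finset.sum_range]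

/-- **integral interpolation** -/
theorem exists_interp {n : ℕ} (r : Fin n → O) (a : Fin n → O) (q : O[X]) (e : Fin n → O)
    (h : ∀ j, a j = q.eval (r j) + (vandermonde r).det * e j) :
    ∃ c : Fin n → O, ∀ j, a j = ∑ l, c l * r j ^ (l : ℕ) := by
  obtain ⟨c₁, hc₁⟩ := exists_coeff_of_eval r q
  obtain ⟨c₂, hc₂⟩ := exists_coeff_of_det_mul r e
  refine ⟨c₁ + c₂, fun j => ?_⟩
  rw [h j, hc₁ j, hc₂ j, ← Finset.sum_add_distrib]
  exact Finset.sum_congr rfl fun l _ => by rw [Pi.add_apply, add_mul]

/-- a matrix whose rows are combinations of the columns of the Vandermonde -/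
theorem det_eq_mul_det_vandermonde {n : ℕ} (r : Fin n → O) (A C : Matrix (Fin n) (Fin n) O)
    (h : ∀ i j, A i j = ∑ l, C i l * r j ^ (l : ℕ)) :
    A.det = C.det * (vandermonde r).det := by
  have hA : A = C * (vandermonde r)ᵀ := by
    ext i j
    rw [h i j, mul_apply]
    exact Finset.sum_congr rfl fun l _ => by rw [transpose_apply, vandermonde_apply]
  rw [hA, det_mul, det_transpose]


/-- **value form**: if every row of `A` is, modulo arbitrarily high powers of the `π j`, the vector
of values of ONE polynomial at the nodes `r j`, and high powers of the `π j` are divisible by the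
Vandermonde determinant of the nodes, then `det A` is divisible by that determinant. -/
theorem exists_det_eq_mul_of_approx {n : ℕ} (r π : Fin n → O) (A : Matrix (Fin n) (Fin n) O)
    (happ : ∀ (i : Fin n) (N : ℕ), ∃ q : O[X], ∀ j, ∃ e : O,
      A i j = q.eval (r j) + (π j) ^ N * e)
    (hN : ∃ N : ℕ, ∀ j, ∃ e : O, (π j) ^ N = (vandermonde r).det * e) :
    ∃ c : O, A.det = c * (vandermonde r).det := by
  obtain ⟨N, hN⟩ := hN
  choose d hd using hN
  have hrow : ∀ i, ∃ c : Fin n → O, ∀ j, A i j = ∑ l, c l * (r j) ^ (l : ℕ) := by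
    intro i
    obtain ⟨q, hq⟩ := happ i N
    choose e he using hq
    refine exists_interp r (fun j => A i j) q (fun j => d j * e j) fun j => ?_
    rw [he j, hd j]
    ring
  choose C hC using hrow
  exact ⟨(Matrix.of C).det, det_eq_mul_det_vandermonde r A (Matrix.of C) fun i j => by
    rw [hC i j]; rfl⟩

section Homs

variable {k R : Type*} [CommRing k] [CommRing R] [Algebra k R] [Algebra k O]

/-- **the determinant of the values of `n` functions at `n` points of a residue disc is divisible
by the Vandermonde of the coordinates of the points.** -/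
theorem exists_det_eq_mul {n : ℕ} (ρ : Fin n → (R →ₐ[k] O)) (u w : R)
    (happ : ∀ (h : R) (N : ℕ), ∃ (q : k[X]) (g : R), h = aeval u q + w ^ N * g)
    (hN : ∃ N : ℕ, ∀ j, ∃ e : O, (ρ j w) ^ N = (vandermonde fun j => ρ j u).det * e)
    (h : Fin n → R) :
    ∃ c : O, (Matrix.of fun i j => ρ j (h i)).det = c * (vandermonde fun j => ρ j u).det := by
  obtain ⟨N, hN⟩ := hN
  have hrow : ∀ i, ∃ c : Fin n → O, ∀ j, ρ j (h i) = ∑ l, c l * (ρ j u) ^ (l : ℕ) := by
    intro i
    obtain ⟨q, g, hq⟩ := happ (h i) N
    choose e he using hN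
    refine exists_interp (fun j => ρ j u) (fun j => ρ j (h i)) (q.map (algebraMap k O))
      (fun j => e j * ρ j g) fun j => ?_
    rw [eval_map_algebraMap]
    conv_lhs => rw [hq]
    rw [map_add, map_mul, map_pow, he j, aeval_algHom_apply]
    ring
  choose C hC using hrow
  refine ⟨(Matrix.of C).det, ?_⟩
  exact det_eq_mul_det_vandermonde (fun j => ρ j u) _ (Matrix.of C) fun i j => by
    rw [Matrix.of_apply, hC i j]
    rfl

end Homs

end Fermat.Agent.S17lib.DegChain
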