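/-
S17lib / DegChain / Local  (helper6)  — Project G, block DEG, part (P4) = Brill–Noether determinant.

LOCAL STATEMENT at one place `x` of `K / k`.  A *point of a residue disc* (`DiscPt`) is a place `p`
of `F / k` together with a local `k`-algebra homomorphism `ρ : O_p → O_x`; its coordinate is
`ρ (uniformizer of p) ∈ m_x`.  For `n` distinct such points `Q j` and `n` functions `h i ∈ F`,
regular at all the `p j`:

  `ord_x det (h i (Q j)) ≥ ∑_{j < j', p j = p j'} ord_x (coord (Q j') - coord (Q j))`

(`ord_det_ge`).  Proof: Taylor expansion at the `p j` + CRT in `k[X]` with the FORMAL nodes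
`r j = c (p j) + coord (Q j)` (`c` injective on the places, with values in `ℕ ⊂ k`) + integral
interpolation (`Interp.lean`).  No completion, no Weierstrass preparation.
-/
import Mathlib
import Fermat.Agent.S17lib.DegChain.Interp
import Fermat.Agent.ProgramR.RHLocal.Place

set_option autoImplicit false
set_option linter.unusedSectionVars false

noncomputable section

namespace Fermat.Agent.S17lib.DegChain

open AlgebraicCurve Matrix Polynomial IsLocalRing
open Fermat.Agent.ProgramR.RHLocal

section Taylor

variable {k : Type*} [Field k] {A : Type*} [CommRing A] [IsDomain A] [IsDiscreteValuationRing A]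
  [Algebra k A] [RatRes k A]

/-- Taylor polynomial with remainder in a discrete valuation ring with coefficient field -/
theorem exists_poly_add_pow_mul {ϖ : A} (hϖ : Irreducible ϖ) (a : A) (N : ℕ) :
    ∃ (t : k[X]) (b : A), a = aeval ϖ t + ϖ ^ N * b := by
  induction N with
  | zero => exact ⟨0, a, by simp⟩
  | succ N ih =>
    obtain ⟨t, b, hb⟩ := ih
    refine ⟨t + C (res k A b) * X ^ N, shift k hϖ b, ?_⟩
    have h1 := eq_add_mul_shift (K := k) hϖ b
    rw [map_add, map_mul, aeval_C, map_pow, aeval_X]
    conv_lhs => rw [hb, h1]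
    ring

end Taylor

variable {k F K : Type*} [Field k] [Field F] [Field K] [Algebra k F] [Algebra k K]

/-- the order of a finite product -/
theorem ord_prod (x : Place k K) {ι : Type*} (s : Finset ι) (f : ι → K) (hf : ∀ i ∈ s, f i ≠ 0) :
    x.ord (∏ i ∈ s, f i) = ∑ i ∈ s, x.ord (f i) := by
  classical
  induction s using Finset.induction_on with
  | empty => simp
  | insert a s ha ih =>
    rw [Finset.prod_insert ha, Finset.sum_insert ha,
      x.ord_mul (hf a (Finset.mem_insert_self a s))
        (Finset.prod_ne_zero_iff.2 fun i hi => hf i (Finset.mem_insert_of_mem hi)),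
      ih fun i hi => hf i (Finset.mem_insert_of_mem hi)]

/-- the order of a unit of the valuation ring is `0` -/
theorem ord_eq_zero_of_isUnit (x : Place k K) {a : x.toValuationSubring} (ha : IsUnit a) :
    x.ord (a : K) = 0 := by
  obtain ⟨u, rfl⟩ := ha
  exact x.ord_coe_unit u

/-- in the valuation ring of a place, high powers of non-units are divisible by a given nonzero
element -/
theorem exists_pow_eq_mul (x : Place k K) {d : x.toValuationSubring} (hd : d ≠ 0) :
    ∃ N : ℕ, ∀ a ∈ maximalIdeal x.toValuationSubring, ∃ e : x.toValuationSubring,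
      a ^ N = d * e := by
  obtain ⟨ϖ, hϖ⟩ := IsDiscreteValuationRing.exists_irreducible x.toValuationSubring
  obtain ⟨N, u, rfl⟩ := IsDiscreteValuationRing.eq_unit_mul_pow_irreducible hd hϖ
  refine ⟨N, fun a ha => ?_⟩
  rw [hϖ.maximalIdeal_eq, Ideal.mem_span_singleton] at ha
  obtain ⟨b, rfl⟩ := ha
  refine ⟨((u⁻¹ : (x.toValuationSubring)ˣ) : x.toValuationSubring) * b ^ N, ?_⟩
  have hu : (u : x.toValuationSubring) * ((u⁻¹ : (x.toValuationSubring)ˣ) : x.toValuationSubring)
      = 1 := by simp
  rw [mul_pow]
  linear_combination (-(ϖ ^ N * b ^ N)) * hu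

/-- **a point of a residue disc** at the place `x` of `K`: a place `p` of `F` and a local
`k`-algebra homomorphism `O_p → O_x`. -/
structure DiscPt (k F : Type*) {K : Type*} [Field k] [Field F] [Field K] [Algebra k F]
    [Algebra k K] (x : Place k K) where
  /-- the reduction of the point -/
  p : Place k F
  /-- evaluation of the functions regular at `p` -/
  ρ : p.toValuationSubring →ₐ[k] x.toValuationSubring
  /-- the evaluation is local -/
  map_mem : ∀ a ∈ maximalIdeal p.toValuationSubring, ρ a ∈ maximalIdeal x.toValuationSubring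

namespace DiscPt

variable {x : Place k K} (Q : DiscPt k F x)

/-- the coordinate of the point: the value of the chosen uniformizer of `p` -/
def coord : x.toValuationSubring := Q.ρ (chosenUniformizer Q.p)

theorem coord_mem : Q.coord ∈ maximalIdeal x.toValuationSubring :=
  Q.map_mem _ (by
    rw [(chosenUniformizer_irreducible Q.p).maximalIdeal_eq]
    exact Ideal.mem_span_singleton_self _)

/-- the value of a function at the point (junk `0` if the function is not regular at `p`) -/
def val (h : F) : K :=
  letI := Classical.propDecidable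
  if hh : h ∈ Q.p.toValuationSubring then ((Q.ρ ⟨h, hh⟩ : x.toValuationSubring) : K) else 0

theorem val_of_mem {h : F} (hh : h ∈ Q.p.toValuationSubring) :
    Q.val h = ((Q.ρ ⟨h, hh⟩ : x.toValuationSubring) : K) := by
  classical
  rw [val, dif_pos hh]

end DiscPt

/-- the Taylor polynomial of order `N` of `h` at the place `P` (junk `0` if `h` has a pole) -/
def taylorPoly (hrat : ∀ P : Place k F, RatRes k P.toValuationSubring) (P : Place k F) (N : ℕ)
    (h : F) : k[X] :=
  letI := Classical.propDecidable
  if hh : h ∈ P.toValuationSubring then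
    (@exists_poly_add_pow_mul k _ _ _ _ _ _ (hrat P) _ (chosenUniformizer_irreducible P)
      (⟨h, hh⟩ : P.toValuationSubring) N).choose
  else 0

theorem taylorPoly_spec (hrat : ∀ P : Place k F, RatRes k P.toValuationSubring) (P : Place k F)
    (N : ℕ) {h : F} (hh : h ∈ P.toValuationSubring) :
    ∃ b : P.toValuationSubring, (⟨h, hh⟩ : P.toValuationSubring) =
      aeval (chosenUniformizer P) (taylorPoly hrat P N h) + (chosenUniformizer P) ^ N * b := by
  classical
  rw [taylorPoly, dif_pos hh]
  exact (@exists_poly_add_pow_mul k _ _ _ _ _ _ (hrat P) _ (chosenUniformizer_irreducible P)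
      (⟨h, hh⟩ : P.toValuationSubring) N).choose_spec

section Main

variable [CharZero k] {x : Place k K}

open Classical in
/-- the canonical representative of the group of `j`: the least index with the same place -/
def grp {n : ℕ} (Q : Fin n → DiscPt k F x) (j : Fin n) : Fin n :=
  (Finset.univ.filter fun a => (Q a).p = (Q j).p).min' ⟨j, by simp⟩

open Classical in
theorem grp_spec {n : ℕ} (Q : Fin n → DiscPt k F x) (j : Fin n) : (Q (grp Q j)).p = (Q j).p :=
  (Finset.mem_filter.1 (Finset.min'_mem (Finset.univ.filter fun a => (Q a).p = (Q j).p)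
    ⟨j, by simp⟩)).2

open Classical in
theorem grp_eq_of_eq {n : ℕ} (Q : Fin n → DiscPt k F x) {j j' : Fin n}
    (h : (Q j).p = (Q j').p) : grp Q j = grp Q j' := by
  unfold grp
  congr 1
  rw [h]

theorem grp_eq_iff {n : ℕ} (Q : Fin n → DiscPt k F x) {j j' : Fin n} :
    grp Q j = grp Q j' ↔ (Q j).p = (Q j').p :=
  ⟨fun h => by rw [← grp_spec Q j, h, grp_spec Q j'], grp_eq_of_eq Q⟩

/-- the constant attached to the group of `j` -/
def grpConst {n : ℕ} (Q : Fin n → DiscPt k F x) (j : Fin n) : k := ((grp Q j : ℕ) : k)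

theorem grpConst_eq_iff {n : ℕ} (Q : Fin n → DiscPt k F x) {j j' : Fin n} :
    grpConst Q j = grpConst Q j' ↔ (Q j).p = (Q j').p := by
  rw [grpConst, grpConst, Nat.cast_inj, ← grp_eq_iff, Fin.val_inj]

/-- the formal node of the point `Q j` -/
def node {n : ℕ} (Q : Fin n → DiscPt k F x) (j : Fin n) : x.toValuationSubring :=
  algebraMap k x.toValuationSubring (grpConst Q j) + (Q j).coord

theorem algebraMap_mem_maximalIdeal_iff (c : k) :
    algebraMap k x.toValuationSubring c ∈ maximalIdeal x.toValuationSubring ↔ c = 0 := by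
  constructor
  · intro h
    by_contra hc
    rw [mem_maximalIdeal, mem_nonunits_iff] at h
    exact h ((isUnit_iff_ne_zero.2 hc).map (algebraMap k x.toValuationSubring))
  · rintro rfl
    rw [map_zero]
    exact zero_mem _

theorem node_sub_node {n : ℕ} (Q : Fin n → DiscPt k F x) (j j' : Fin n) :
    node Q j' - node Q j = algebraMap k x.toValuationSubring (grpConst Q j' - grpConst Q j)
      + ((Q j').coord - (Q j).coord) := by
  rw [node, node, map_sub]
  ring

theorem node_sub_node_of_eq {n : ℕ} (Q : Fin n → DiscPt k F x) {j j' : Fin n}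
    (h : (Q j).p = (Q j').p) : node Q j' - node Q j = (Q j').coord - (Q j).coord := by
  rw [node_sub_node, (grpConst_eq_iff Q).2 h, sub_self, map_zero, zero_add]

theorem isUnit_node_sub_node_of_ne {n : ℕ} (Q : Fin n → DiscPt k F x) {j j' : Fin n}
    (h : (Q j).p ≠ (Q j').p) : IsUnit (node Q j' - node Q j) := by
  by_contra hu
  have hm : node Q j' - node Q j ∈ maximalIdeal x.toValuationSubring := by
    rwa [mem_maximalIdeal, mem_nonunits_iff]
  rw [node_sub_node] at hm
  have h2 : (Q j').coord - (Q j).coord ∈ maximalIdeal x.toValuationSubring :=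
    sub_mem (Q j').coord_mem (Q j).coord_mem
  have h3 := (Ideal.add_mem_iff_left _ h2).1 hm
  rw [algebraMap_mem_maximalIdeal_iff, sub_eq_zero] at h3
  exact h ((grpConst_eq_iff Q).1 h3.symm)

theorem node_injective {n : ℕ} (Q : Fin n → DiscPt k F x)
    (hinj : ∀ j j', (Q j).p = (Q j').p → (Q j).coord = (Q j').coord → j = j') :
    Function.Injective (node Q) := by
  intro j j' hjj'
  by_cases hp : (Q j).p = (Q j').p
  · refine hinj j j' hp ?_
    have := node_sub_node_of_eq Q hp
    rw [hjj', sub_self] at this
    exact (sub_eq_zero.1 this.symm).symm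
  · have := isUnit_node_sub_node_of_ne Q hp
    rw [hjj', sub_self] at this
    exact absurd this not_isUnit_zero

/-- the approximation property of the rows -/
theorem exists_approx (hrat : ∀ P : Place k F, RatRes k P.toValuationSubring) {n : ℕ}
    (Q : Fin n → DiscPt k F x) (h : F) (hh : ∀ j, h ∈ (Q j).p.toValuationSubring) (N : ℕ) :
    ∃ q : (x.toValuationSubring)[X], ∀ j, ∃ e : x.toValuationSubring,
      (Q j).ρ ⟨h, hh j⟩ = q.eval (node Q j) + ((Q j).coord) ^ N * e := by
  classical
  -- the local targets and the CRT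
  let tgt : Fin n → k[X] := fun a =>
    (taylorPoly hrat (Q a).p N h).comp (X - C ((a : ℕ) : k))
  let I : Fin n → Ideal k[X] := fun a => Ideal.span {(X - C ((a : ℕ) : k)) ^ N}
  have hI : Pairwise (Function.onFun IsCoprime I) := by
    intro a b hab
    show IsCoprime (I a) (I b)
    rw [Ideal.isCoprime_span_singleton_iff]
    apply IsCoprime.pow
    apply Polynomial.isCoprime_X_sub_C_of_isUnit_sub
    rw [isUnit_iff_ne_zero, sub_ne_zero, Ne, Nat.cast_inj, Fin.val_inj]
    exact hab
  obtain ⟨q, hq⟩ := Ideal.exists_forall_sub_mem_ideal hI tgt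
  refine ⟨q.map (algebraMap k x.toValuationSubring), fun j => ?_⟩
  -- the data at `j`
  set a := grp Q j with ha
  have hpa : (Q a).p = (Q j).p := grp_spec Q j
  obtain ⟨s, hs⟩ := Ideal.mem_span_singleton.1 (hq a)
  obtain ⟨b, hb⟩ := taylorPoly_spec hrat (Q j).p N (hh j)
  have hnode : node Q j - algebraMap k x.toValuationSubring ((a : ℕ) : k) = (Q j).coord := by
    rw [node, grpConst]
    ring
  refine ⟨(Q j).ρ b - aeval (node Q j) s, ?_⟩
  rw [eval_map_algebraMap]
  have h1 : aeval (node Q j) q = aeval (node Q j) (tgt a) + (Q j).coord ^ N * aeval (node Q j) s := by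
    have : q = tgt a + (X - C ((a : ℕ) : k)) ^ N * s := by rw [← hs]; ring
    rw [this, map_add, map_mul, map_pow, map_sub, aeval_X, aeval_C, hnode]
  have h2 : aeval (node Q j) (tgt a) = aeval (Q j).coord (taylorPoly hrat (Q j).p N h) := by
    show aeval (node Q j) ((taylorPoly hrat (Q a).p N h).comp (X - C ((a : ℕ) : k))) = _
    rw [hpa, aeval_comp, map_sub, aeval_X, aeval_C, hnode]
  have h3 : (Q j).ρ ⟨h, hh j⟩ =
      aeval (Q j).coord (taylorPoly hrat (Q j).p N h) + (Q j).coord ^ N * (Q j).ρ b := by
    rw [hb, map_add, map_mul, map_pow, ← aeval_algHom_apply]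
    rfl
  rw [h1, h2, h3]
  ring

/-- **Local Brill–Noether inequality.** -/
theorem ord_det_ge (hrat : ∀ P : Place k F, RatRes k P.toValuationSubring) {n : ℕ}
    (Q : Fin n → DiscPt k F x)
    (hinj : ∀ j j', (Q j).p = (Q j').p → (Q j).coord = (Q j').coord → j = j')
    (h : Fin n → F) (hh : ∀ i j, h i ∈ (Q j).p.toValuationSubring)
    (hdet : (Matrix.of fun i j => (Q j).val (h i)).det ≠ 0) :
    letI := Classical.decEq (Place k F)
    ∑ j, ∑ j' ∈ Finset.Ioi j,
      (if (Q j).p = (Q j').p then x.ord ((((Q j').coord - (Q j).coord : x.toValuationSubring)) : K)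
        else 0)
      ≤ x.ord (Matrix.of fun i j => (Q j).val (h i)).det := by
  classical
  -- the integral matrix
  let A : Matrix (Fin n) (Fin n) x.toValuationSubring := Matrix.of fun i j => (Q j).ρ ⟨h i, hh i j⟩
  have hAK : (Matrix.of fun i j => (Q j).val (h i)) =
      (x.toValuationSubring.subtype).mapMatrix A := by
    ext i j
    simp only [Matrix.of_apply, RingHom.mapMatrix_apply, Matrix.map_apply, A]
    exact (Q j).val_of_mem (hh i j)
  have hinjn := node_injective Q hinj
  have hV0 : (vandermonde (node Q)).det ≠ 0 := det_vandermonde_ne_zero_iff.2 hinjn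
  obtain ⟨N, hN⟩ := exists_pow_eq_mul x hV0
  obtain ⟨c, hc⟩ := exists_det_eq_mul_of_approx (node Q) (fun j => (Q j).coord) A
    (fun i N => exists_approx hrat Q (h i) (hh i) N) ⟨N, fun j => hN _ (Q j).coord_mem⟩
  have hdetK : (Matrix.of fun i j => (Q j).val (h i)).det
      = (c : K) * ((vandermonde (node Q)).det : K) := by
    rw [hAK, ← RingHom.map_det, hc, map_mul]
    rfl
  rw [hdetK] at hdet ⊢
  have hc0 : (c : K) ≠ 0 := left_ne_zero_of_mul hdet
  have hV0' : (((vandermonde (node Q)).det : x.toValuationSubring) : K) ≠ 0 :=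
    right_ne_zero_of_mul hdet
  rw [x.ord_mul hc0 hV0']
  have hcge : 0 ≤ x.ord (c : K) := ord_nonneg_of_mem c.2
  -- the order of the Vandermonde determinant
  have hVK : (((vandermonde (node Q)).det : x.toValuationSubring) : K)
      = ∏ j, ∏ j' ∈ Finset.Ioi j, (((node Q j' - node Q j : x.toValuationSubring)) : K) := by
    rw [det_vandermonde]
    push_cast
    rfl
  have hne : ∀ j, ∀ j' ∈ Finset.Ioi j, (((node Q j' - node Q j : x.toValuationSubring)) : K) ≠ 0 := by
    intro j j' hj'
    have : node Q j' - node Q j ≠ 0 := by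
      rw [sub_ne_zero]
      exact fun h => (ne_of_gt (Finset.mem_Ioi.1 hj')) (hinjn h)
    rw [Ne, ZeroMemClass.coe_eq_zero]
    exact this
  rw [hVK, ord_prod x Finset.univ _ fun j _ => Finset.prod_ne_zero_iff.2 (hne j)]
  have hsum : ∀ j, x.ord (∏ j' ∈ Finset.Ioi j, (((node Q j' - node Q j : x.toValuationSubring)) : K))
      = ∑ j' ∈ Finset.Ioi j, (if (Q j).p = (Q j').p then
          x.ord ((((Q j').coord - (Q j).coord : x.toValuationSubring)) : K) else 0) := by
    intro j
    rw [ord_prod x _ _ (hne j)]
    refine Finset.sum_congr rfl fun j' _ => ?_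
    split_ifs with hp
    · rw [node_sub_node_of_eq Q hp]
    · exact ord_eq_zero_of_isUnit x (isUnit_node_sub_node_of_ne Q hp)
  rw [Finset.sum_congr rfl fun j _ => hsum j]
  omega

end Main

end Fermat.Agent.S17lib.DegChain
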