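/-
S17lib / DegChain / Points  (helper6)  — Project G, block DEG.

`L`-valued points of the curve with function field `F / k` (`L / k` another function field):
either a CONSTANT point (a place `p` of `F`) or a GENERIC point (a `k`-embedding `σ : F → L`,
integral).  Reduction at a place `x` of `L` (`KPt.red`), the residue-disc point (`KPt.disc`,
in the sense of `Local.lean`), the LOCAL INTERSECTION NUMBER

  `locInt x S R = ord_x (u(R) - u(S))`  if `S(x) = R(x) = p`  (`u` the chosen uniformizer at `p`),
  `locInt x S R = 0` otherwise,

and the GLOBAL pairing `pair S R = ∑ᶠ x, locInt x S R`.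
-/
import Mathlib
import Fermat.Agent.S17lib.DegChain.Local
import Fermat.Prelude.Def_AlgebraicCurve_Correspondence
import Fermat.Agent.S18lib.Cech.CurveBasics
import Fermat.Agent.S18lib.Setup.DivLemmas

set_option autoImplicit false
set_option linter.unusedSectionVars false
set_option linter.style.haveILetI false

noncomputable section

namespace Fermat.Agent.S17lib.DegChain

open AlgebraicCurve IsLocalRing
open Fermat.Agent.ProgramR.RHLocal

variable {k F L : Type*} [Field k] [Field F] [Field L] [Algebra k F] [Algebra k L]

/-- evaluation of a generic point at a place `x`: the local homomorphism `O_{x ∘ σ} → O_x` -/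
def genHom (σ : F →ₐ[k] L) (hσ : σ.toRingHom.IsIntegral) (x : Place k L) :
    (x.restrictAlong σ hσ).toValuationSubring →ₐ[k] x.toValuationSubring where
  toFun a := ⟨σ (a : F), a.2⟩
  map_one' := Subtype.ext (map_one σ)
  map_mul' a b := Subtype.ext (map_mul σ (a : F) (b : F))
  map_zero' := Subtype.ext (map_zero σ)
  map_add' a b := Subtype.ext (map_add σ (a : F) (b : F))
  commutes' c := Subtype.ext (σ.commutes c)

@[simp]
theorem coe_genHom (σ : F →ₐ[k] L) (hσ : σ.toRingHom.IsIntegral) (x : Place k L)
    (a : (x.restrictAlong σ hσ).toValuationSubring) :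
    ((genHom σ hσ x a : x.toValuationSubring) : L) = σ (a : F) := rfl

theorem mem_restrictAlong_iff (σ : F →ₐ[k] L) (hσ : σ.toRingHom.IsIntegral) (x : Place k L)
    (f : F) : f ∈ (x.restrictAlong σ hσ).toValuationSubring ↔ σ f ∈ x.toValuationSubring :=
  Iff.rfl

theorem genHom_mem_maximalIdeal (σ : F →ₐ[k] L) (hσ : σ.toRingHom.IsIntegral) (x : Place k L)
    (a : (x.restrictAlong σ hσ).toValuationSubring)
    (ha : a ∈ maximalIdeal (x.restrictAlong σ hσ).toValuationSubring) :
    genHom σ hσ x a ∈ maximalIdeal x.toValuationSubring := by
  letI := algebraAlong σ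
  haveI := isScalarTower_along σ
  haveI := isIntegral_along σ hσ
  rw [mem_maximalIdeal, mem_nonunits_iff] at ha ⊢
  intro hu
  apply ha
  have : IsUnit (Place.restrictInclusion F x a) := hu
  exact (Place.instIsLocalHomRestrictInclusion (F := F) x).map_nonunit a this

/-- evaluation at a constant point: `O_p → k → O_x` -/
def constHom (hrat : ∀ P : Place k F, RatRes k P.toValuationSubring) (p : Place k F)
    (x : Place k L) : p.toValuationSubring →ₐ[k] x.toValuationSubring :=
  (Algebra.ofId k x.toValuationSubring).comp (@res k p.toValuationSubring _ _ _ _ (hrat p))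

theorem constHom_apply (hrat : ∀ P : Place k F, RatRes k P.toValuationSubring) (p : Place k F)
    (x : Place k L) (a : p.toValuationSubring) :
    constHom hrat p x a =
      algebraMap k x.toValuationSubring (@res k p.toValuationSubring _ _ _ _ (hrat p) a) := rfl

theorem constHom_mem_maximalIdeal (hrat : ∀ P : Place k F, RatRes k P.toValuationSubring)
    (p : Place k F) (x : Place k L) (a : p.toValuationSubring)
    (ha : a ∈ maximalIdeal p.toValuationSubring) :
    constHom hrat p x a ∈ maximalIdeal x.toValuationSubring := by
  haveI := hrat p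
  rw [constHom_apply, (res_eq_zero_iff (K := k) a).2 ha, map_zero]
  exact zero_mem _

/-- an `L`-valued point of the curve with function field `F / k` -/
inductive KPt (k F L : Type*) [Field k] [Field F] [Field L] [Algebra k F] [Algebra k L] where
  /-- a constant point -/
  | const (p : Place k F) : KPt k F L
  /-- a generic point -/
  | gen (σ : F →ₐ[k] L) (hσ : σ.toRingHom.IsIntegral) : KPt k F L

namespace KPt

/-- the reduction (specialisation) of a point at a place `x` of `L` -/
def red (x : Place k L) : KPt k F L → Place k F
  | const p => p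
  | gen σ hσ => x.restrictAlong σ hσ

/-- the point of the residue disc at `x` defined by an `L`-point -/
def disc (hrat : ∀ P : Place k F, RatRes k P.toValuationSubring) (x : Place k L) :
    KPt k F L → DiscPt k F x
  | const p => ⟨p, constHom hrat p x, constHom_mem_maximalIdeal hrat p x⟩
  | gen σ hσ => ⟨x.restrictAlong σ hσ, genHom σ hσ x, genHom_mem_maximalIdeal σ hσ x⟩

@[simp]
theorem disc_p (hrat : ∀ P : Place k F, RatRes k P.toValuationSubring) (x : Place k L)
    (S : KPt k F L) : (S.disc hrat x).p = S.red x := by
  cases S <;> rfl

/-- the degree of a point: `[L : σ F]`, `0` for a constant point -/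
def deg : KPt k F L → ℕ
  | const _ => 0
  | gen σ _ => finrankAlong k σ

/-- the local coordinate of the point at `x`: the value of the chosen uniformizer of the
reduction -/
def coord (hrat : ∀ P : Place k F, RatRes k P.toValuationSubring) (x : Place k L)
    (S : KPt k F L) : L := ((S.disc hrat x).coord : x.toValuationSubring)

theorem coord_const (hrat : ∀ P : Place k F, RatRes k P.toValuationSubring) (x : Place k L)
    (p : Place k F) : (const p : KPt k F L).coord hrat x = 0 := by
  haveI := hrat p
  have h : res k p.toValuationSubring (chosenUniformizer p) = 0 :=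
    res_irreducible (chosenUniformizer_irreducible p)
  show ((constHom hrat p x (chosenUniformizer p) : x.toValuationSubring) : L) = 0
  rw [constHom_apply, h, map_zero]
  rfl

theorem coord_gen (hrat : ∀ P : Place k F, RatRes k P.toValuationSubring) (x : Place k L)
    (σ : F →ₐ[k] L) (hσ : σ.toRingHom.IsIntegral) :
    (gen σ hσ : KPt k F L).coord hrat x =
      σ ((chosenUniformizer (x.restrictAlong σ hσ) : (x.restrictAlong σ hσ).toValuationSubring) : F) :=
  rfl

end KPt

open Classical in
/-- the **local intersection number** of two points at the place `x` -/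
def locInt (hrat : ∀ P : Place k F, RatRes k P.toValuationSubring) (x : Place k L)
    (S R : KPt k F L) : ℤ :=
  if S.red x = R.red x then x.ord (R.coord hrat x - S.coord hrat x) else 0

/-- the **global pairing** of two points -/
def pair (hrat : ∀ P : Place k F, RatRes k P.toValuationSubring) (S R : KPt k F L) : ℤ :=
  ∑ᶠ x : Place k L, locInt hrat x S R

section Basic

variable (hrat : ∀ P : Place k F, RatRes k P.toValuationSubring) (x : Place k L)

theorem KPt.coord_mem (S : KPt k F L) : S.coord hrat x ∈ x.toValuationSubring :=
  ((S.disc hrat x).coord : x.toValuationSubring).2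

theorem KPt.coord_eq_zero_or_pos (S : KPt k F L) :
    S.coord hrat x = 0 ∨ 1 ≤ x.ord (S.coord hrat x) := by
  by_cases h0 : (S.disc hrat x).coord = 0
  · left
    show (((S.disc hrat x).coord : x.toValuationSubring) : L) = 0
    rw [h0]; rfl
  · right
    exact one_le_ord_of_mem_maximalIdeal (S.disc hrat x).coord_mem h0

theorem locInt_comm (S R : KPt k F L) : locInt hrat x S R = locInt hrat x R S := by
  unfold locInt
  by_cases h : S.red x = R.red x
  · rw [if_pos h, if_pos h.symm, ← Fermat.Agent.S18lib.Cech.ord_neg, neg_sub]
  · rw [if_neg h, if_neg (Ne.symm h)]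

theorem locInt_nonneg (S R : KPt k F L) : 0 ≤ locInt hrat x S R := by
  unfold locInt
  split_ifs with h
  · exact ord_nonneg_of_mem (sub_mem (R.coord_mem hrat x) (S.coord_mem hrat x))
  · exact le_rfl

theorem locInt_self (S : KPt k F L) : locInt hrat x S S = 0 := by
  unfold locInt
  rw [if_pos rfl, sub_self, x.ord_zero]

/-- the local intersection number with a constant point is the ramification index -/
theorem locInt_gen_const (σ : F →ₐ[k] L) (hσ : σ.toRingHom.IsIntegral) (P : Place k F) :
    locInt hrat x (KPt.gen σ hσ) (KPt.const P) =
      letI := Classical.propDecidable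
      if x.restrictAlong σ hσ = P then (Place.ramificationIndexAlong σ x : ℤ) else 0 := by
  classical
  unfold locInt
  show (if x.restrictAlong σ hσ = P then _ else 0) = _
  split_ifs with h
  · rw [KPt.coord_const, zero_sub, Fermat.Agent.S18lib.Cech.ord_neg, KPt.coord_gen,
      Place.ord_restrictAlong σ hσ x, ord_chosenUniformizer, mul_one]
  · rfl

end Basic

section Separation

variable (hrat : ∀ P : Place k F, RatRes k P.toValuationSubring) (x : Place k L)

theorem ramificationIndexAlong_pos (σ : F →ₐ[k] L) (hσ : σ.toRingHom.IsIntegral) :
    0 < Place.ramificationIndexAlong σ x := by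
  letI := algebraAlong σ
  haveI := isIntegral_along σ hσ
  exact Place.ramificationIndex_pos x

theorem chosenUniformizer_congr {p p' : Place k F} (h : p = p') :
    ((chosenUniformizer p : p.toValuationSubring) : F) =
      ((chosenUniformizer p' : p'.toValuationSubring) : F) := by
  subst h
  rfl

theorem coe_aeval_valuationSubring (p : Place k F) (a : p.toValuationSubring)
    (T : Polynomial k) :
    ((Polynomial.aeval a T : p.toValuationSubring) : F) = Polynomial.aeval (a : F) T := by
  rw [Polynomial.aeval_def, Polynomial.aeval_def]
  exact Polynomial.hom_eval₂ T (algebraMap k p.toValuationSubring)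
    (p.toValuationSubring.subtype) a

include hrat in
/-- two `k`-embeddings `F → L` with the same reduction `p` at `x` and the same value at a
uniformizer of `p` agree on `O_p` -/
theorem eq_on_of_coord_eq (σ σ' : F →ₐ[k] L) (hσ : σ.toRingHom.IsIntegral)
    (hσ' : σ'.toRingHom.IsIntegral)
    (hp : x.restrictAlong σ hσ = x.restrictAlong σ' hσ')
    (hc : σ ((chosenUniformizer (x.restrictAlong σ hσ) :
      (x.restrictAlong σ hσ).toValuationSubring) : F) =
      σ' ((chosenUniformizer (x.restrictAlong σ hσ) :
      (x.restrictAlong σ hσ).toValuationSubring) : F))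
    (f : F) (hf : f ∈ (x.restrictAlong σ hσ).toValuationSubring) : σ f = σ' f := by
  by_contra hne
  set p := x.restrictAlong σ hσ with hpdef
  set ϖ := chosenUniformizer p with hϖ
  have hd : σ f - σ' f ≠ 0 := sub_ne_zero.2 hne
  -- the order of the coordinate
  have hcpos : 1 ≤ x.ord (σ (ϖ : F)) := by
    rw [Place.ord_restrictAlong σ hσ x, ← hpdef, hϖ, ord_chosenUniformizer, mul_one]
    have := ramificationIndexAlong_pos x σ hσ
    omega
  have hc0 : σ (ϖ : F) ≠ 0 := by
    intro h0
    rw [h0, x.ord_zero] at hcpos
    omega
  -- Taylor expansion of order `N`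
  set N : ℕ := (x.ord (σ f - σ' f)).toNat + 1 with hN
  obtain ⟨b, hb⟩ := taylorPoly_spec hrat p N hf
  have hbF : f = Polynomial.aeval (ϖ : F) (taylorPoly hrat p N f) + (ϖ : F) ^ N * (b : F) := by
    have h := congrArg (fun z : p.toValuationSubring => (z : F)) hb
    refine h.trans ?_
    show ((Polynomial.aeval ϖ (taylorPoly hrat p N f) + ϖ ^ N * b : p.toValuationSubring) : F) = _
    push_cast
    rw [coe_aeval_valuationSubring]
  have h1 : σ f = Polynomial.aeval (σ (ϖ : F)) (taylorPoly hrat p N f) + σ (ϖ : F) ^ N * σ (b : F) := by
    conv_lhs => rw [hbF]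
    rw [map_add, map_mul, map_pow, ← Polynomial.aeval_algHom_apply]
  have h2 : σ' f = Polynomial.aeval (σ (ϖ : F)) (taylorPoly hrat p N f) + σ (ϖ : F) ^ N * σ' (b : F) := by
    conv_lhs => rw [hbF]
    rw [map_add, map_mul, map_pow, ← Polynomial.aeval_algHom_apply, ← hc]
  have h3 : σ f - σ' f = σ (ϖ : F) ^ N * (σ (b : F) - σ' (b : F)) := by
    rw [h1, h2]; ring
  have hb0 : σ (b : F) - σ' (b : F) ≠ 0 := by
    intro h0
    rw [h0, mul_zero] at h3
    exact hd h3
  have hbmem : σ (b : F) - σ' (b : F) ∈ x.toValuationSubring := by
    refine sub_mem ((mem_restrictAlong_iff σ hσ x _).1 b.2) ?_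
    have : (b : F) ∈ (x.restrictAlong σ' hσ').toValuationSubring := by
      rw [← hp]; exact b.2
    exact (mem_restrictAlong_iff σ' hσ' x _).1 this
  have h4 : x.ord (σ f - σ' f) = N * x.ord (σ (ϖ : F)) + x.ord (σ (b : F) - σ' (b : F)) := by
    rw [h3, x.ord_mul (pow_ne_zero _ hc0) hb0, Fermat.Agent.S18lib.Cech.ord_pow]
  have h5 : 0 ≤ x.ord (σ (b : F) - σ' (b : F)) := ord_nonneg_of_mem hbmem
  have h6 : (N : ℤ) ≤ N * x.ord (σ (ϖ : F)) := by
    have : (0 : ℤ) ≤ N := Nat.cast_nonneg N
    nlinarith
  have h7 : (N : ℤ) = ((x.ord (σ f - σ' f)).toNat : ℤ) + 1 := by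
    rw [hN]; push_cast; ring
  have h8 := Int.self_le_toNat (x.ord (σ f - σ' f))
  omega

include hrat in
/-- two `k`-embeddings `F → L` with the same reduction `p` at `x` and the same value at a
uniformizer of `p` are equal -/
theorem eq_of_coord_eq (σ σ' : F →ₐ[k] L) (hσ : σ.toRingHom.IsIntegral)
    (hσ' : σ'.toRingHom.IsIntegral)
    (hp : x.restrictAlong σ hσ = x.restrictAlong σ' hσ')
    (hc : σ ((chosenUniformizer (x.restrictAlong σ hσ) :
      (x.restrictAlong σ hσ).toValuationSubring) : F) =
      σ' ((chosenUniformizer (x.restrictAlong σ hσ) :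
      (x.restrictAlong σ hσ).toValuationSubring) : F)) : σ = σ' := by
  apply AlgHom.ext
  intro f
  rcases (x.restrictAlong σ hσ).toValuationSubring.mem_or_inv_mem f with hf | hf
  · exact eq_on_of_coord_eq hrat x σ σ' hσ hσ' hp hc f hf
  · have := eq_on_of_coord_eq hrat x σ σ' hσ hσ' hp hc f⁻¹ hf
    rw [map_inv₀, map_inv₀] at this
    exact inv_injective this

/-- **separation**: distinct points with the same reduction at `x` have distinct coordinates -/
theorem KPt.eq_of_red_eq_of_coord_eq {S R : KPt k F L} (hp : S.red x = R.red x)
    (hc : S.coord hrat x = R.coord hrat x) : S = R := by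
  cases S with
  | const p =>
    cases R with
    | const p' =>
      have : p = p' := hp
      rw [this]
    | gen σ hσ =>
      exfalso
      rw [KPt.coord_const, KPt.coord_gen] at hc
      have h0 := (map_eq_zero σ).1 hc.symm
      exact (chosenUniformizer_irreducible (x.restrictAlong σ hσ)).ne_zero (Subtype.ext h0)
  | gen σ hσ =>
    cases R with
    | const p' =>
      exfalso
      rw [KPt.coord_const, KPt.coord_gen] at hc
      have h0 := (map_eq_zero σ).1 hc
      exact (chosenUniformizer_irreducible (x.restrictAlong σ hσ)).ne_zero (Subtype.ext h0)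
    | gen σ' hσ' =>
      have hp' : x.restrictAlong σ hσ = x.restrictAlong σ' hσ' := hp
      rw [KPt.coord_gen, KPt.coord_gen, ← chosenUniformizer_congr hp'] at hc
      have := eq_of_coord_eq hrat x σ σ' hσ hσ' hp' hc
      subst this
      rfl

end Separation

section Global

variable (hrat : ∀ P : Place k F, RatRes k P.toValuationSubring) [HasPrincipalDivisors k L]

open Fermat.Agent.S18lib in
/-- the local intersection numbers of two distinct points vanish at almost all places -/
theorem locInt_support_finite {S R : KPt k F L} (hSR : S ≠ R) :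
    (Function.support fun x : Place k L => locInt hrat x S R).Finite := by
  classical
  -- the case of a generic and a constant point
  have hgc : ∀ (σ : F →ₐ[k] L) (hσ : σ.toRingHom.IsIntegral) (P : Place k F),
      (Function.support fun x : Place k L =>
        locInt hrat x (KPt.gen σ hσ) (KPt.const P)).Finite := by
    intro σ hσ P
    refine (Place.fiberAlong σ hσ P).finite_toSet.subset fun x hx => ?_
    rw [Function.mem_support, locInt_gen_const] at hx
    rw [Finset.mem_coe, Place.mem_fiberAlong]
    by_contra hne
    exact hx (if_neg hne)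
  cases S with
  | const p =>
    cases R with
    | const p' =>
      convert Set.finite_empty
      rw [Set.eq_empty_iff_forall_notMem]
      intro x hx
      apply hx
      show locInt hrat x (KPt.const p) (KPt.const p') = 0
      unfold locInt
      rw [KPt.coord_const, KPt.coord_const, sub_self, x.ord_zero, ite_self]
    | gen σ hσ =>
      convert hgc σ hσ p using 2
      funext x
      exact locInt_comm hrat x _ _
  | gen σ hσ =>
    cases R with
    | const p' => exact hgc σ hσ p'
    | gen σ' hσ' =>
      have hne : σ ≠ σ' := by
        rintro rfl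
        exact hSR rfl
      obtain ⟨t, ht⟩ : ∃ t, σ t ≠ σ' t := by
        by_contra hall
        push Not at hall
        exact hne (AlgHom.ext hall)
      have hd : σ t - σ' t ≠ 0 := sub_ne_zero.2 ht
      refine ((divOf (K := k) (σ t - σ' t)).support.finite_toSet.union
        (divOf (K := k) (σ t)).support.finite_toSet).subset fun x hx => ?_
      rw [Function.mem_support] at hx
      have hp : x.restrictAlong σ hσ = x.restrictAlong σ' hσ' := by
        by_contra hp
        apply hx
        unfold locInt
        exact if_neg hp
      by_cases htm : t ∈ (x.restrictAlong σ hσ).toValuationSubring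
      · left
        rw [Finset.mem_coe, Finsupp.mem_support_iff, divOf_apply']
        haveI := hrat (x.restrictAlong σ hσ)
        set c : k := res k (x.restrictAlong σ hσ).toValuationSubring ⟨t, htm⟩ with hc
        have hmem := sub_algebraMap_res_mem (K := k) (⟨t, htm⟩ : (x.restrictAlong σ hσ).toValuationSubring)
        rw [← hc] at hmem
        have h1 : t - algebraMap k F c = 0 ∨
            1 ≤ (x.restrictAlong σ hσ).ord (t - algebraMap k F c) := by
          by_cases h0 : t - algebraMap k F c = 0
          · exact Or.inl h0
          · right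
            have := one_le_ord_of_mem_maximalIdeal hmem (fun h => h0 (congrArg Subtype.val h))
            exact this
        have e1 := ramificationIndexAlong_pos x σ hσ
        have e2 := ramificationIndexAlong_pos x σ' hσ'
        have h2 : σ (t - algebraMap k F c) = 0 ∨ 1 ≤ x.ord (σ (t - algebraMap k F c)) := by
          rcases h1 with h1 | h1
          · left; rw [h1, map_zero]
          · right
            rw [Place.ord_restrictAlong σ hσ x]
            have : (1 : ℤ) ≤ Place.ramificationIndexAlong σ x := by exact_mod_cast e1
            nlinarith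
        have h3 : -σ' (t - algebraMap k F c) = 0 ∨ 1 ≤ x.ord (-σ' (t - algebraMap k F c)) := by
          rw [Cech.ord_neg, neg_eq_zero]
          rcases h1 with h1 | h1
          · left; rw [h1, map_zero]
          · right
            rw [Place.ord_restrictAlong σ' hσ' x, ← hp]
            have : (1 : ℤ) ≤ Place.ramificationIndexAlong σ' x := by exact_mod_cast e2
            nlinarith
        have h4 := Cech.ord_add_ge x h2 h3
        have h5 : σ (t - algebraMap k F c) + -σ' (t - algebraMap k F c) = σ t - σ' t := by
          rw [map_sub, map_sub, AlgHom.commutes, AlgHom.commutes]; ring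
        rw [h5] at h4
        rcases h4 with h4 | h4
        · exact absurd h4 hd
        · omega
      · right
        rw [Finset.mem_coe, Finsupp.mem_support_iff, divOf_apply']
        have h1 := ord_neg_of_not_mem htm
        rw [Place.ord_restrictAlong σ hσ x]
        have e1 := ramificationIndexAlong_pos x σ hσ
        have : (1 : ℤ) ≤ Place.ramificationIndexAlong σ x := by exact_mod_cast e1
        nlinarith

/-- the local intersection numbers vanish at almost all places (all cases) -/
theorem locInt_support_finite' (S R : KPt k F L) :
    (Function.support fun x : Place k L => locInt hrat x S R).Finite := by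
  by_cases h : S = R
  · subst h
    convert Set.finite_empty
    rw [Set.eq_empty_iff_forall_notMem]
    intro x hx
    exact hx (locInt_self hrat x S)
  · exact locInt_support_finite hrat h

theorem pair_eq_sum {S R : KPt k F L} (T : Finset (Place k L))
    (hT : (Function.support fun x : Place k L => locInt hrat x S R) ⊆ T) :
    pair hrat S R = ∑ x ∈ T, locInt hrat x S R :=
  finsum_eq_sum_of_support_subset _ hT

theorem pair_comm (S R : KPt k F L) : pair hrat S R = pair hrat R S := by
  unfold pair
  exact finsum_congr fun x => locInt_comm hrat x S R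

theorem pair_nonneg (S R : KPt k F L) : 0 ≤ pair hrat S R :=
  finsum_nonneg fun x => locInt_nonneg hrat x S R

/-- **(L4)**: the pairing of a generic point with a constant point is the degree -/
theorem pair_gen_const (σ : F →ₐ[k] L) (hσ : σ.toRingHom.IsIntegral)
    (hFI : FundamentalIdentityAlong k σ hσ) (hdegL : ∀ x : Place k L, x.deg = 1)
    (P : Place k F) (hP : P.deg = 1) :
    pair hrat (KPt.gen σ hσ) (KPt.const P) = finrankAlong k σ := by
  classical
  rw [pair_eq_sum hrat (Place.fiberAlong σ hσ P)]
  · letI := algebraAlong σ
    haveI := isScalarTower_along σ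
    haveI := isIntegral_along σ hσ
    have h := (show FundamentalIdentity k F L from hFI).sum_ramificationIndex_mul_deg P
    rw [hP, Nat.cast_one, mul_one] at h
    rw [show (finrankAlong k σ : ℤ) = (Module.finrank F L : ℤ) from rfl, ← h]
    refine Finset.sum_congr rfl fun x hx => ?_
    rw [locInt_gen_const, if_pos (Place.mem_fiberAlong.1 hx), hdegL x, Nat.cast_one, mul_one]
    rfl
  · intro x hx
    rw [Function.mem_support, locInt_gen_const] at hx
    rw [Finset.mem_coe, Place.mem_fiberAlong]
    by_contra hne
    exact hx (if_neg hne)

end Global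

end Fermat.Agent.S17lib.DegChain
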