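/-
S17lib / DegChain / BN  (helper6)  — Project G, block DEG, part (P4): the GLOBAL Brill–Noether
inequality.

`Q_1 … Q_n` pairwise distinct `L`-points of the curve `F / k`, `W` a divisor of `F`, `f_1 … f_n ∈ L(W)`
with `det (f_i (Q_j)) ≠ 0`  ⟹

    `∑_{j < j'} (Q_j . Q_j')  ≤  ∑_j ∑_p W(p) (Q_j . p)`          (`sum_pair_le`)

and, with (L4) `(Q . p) = deg Q`:  `∑_{j<j'} (Q_j . Q_j') ≤ deg W · ∑_j deg Q_j`  (`sum_pair_le_deg`).
For `W` canonical (`deg W = 2g - 2`, `n = g`) this is (P4).

Proof: at every place `x` of `L` the local inequality `Local.ord_det_ge` for the functions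
`f_i u_x` (`u_x ∈ F` with `ord_p u_x = W(p)` at the reductions `p` of the `Q_j` at `x`: weak
approximation), then the product formula for `det (f_i (Q_j)) ∈ L`.
-/
import Mathlib
import Fermat.Agent.S17lib.DegChain.Points
import Fermat.Agent.S15lib.Weil.Moving
import Fermat.Agent.S37lib.Tower.SumRam

set_option autoImplicit false
set_option linter.unusedSectionVars false
set_option linter.style.haveILetI false

noncomputable section

namespace Fermat.Agent.S17lib.DegChain

open AlgebraicCurve IsLocalRing Matrix
open Fermat.Agent.ProgramR.RHLocal Fermat.Agent.S18lib Fermat.Agent.ProgramR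

variable {k F L : Type*} [Field k] [Field F] [Field L] [Algebra k F] [Algebra k L]

section ConstVal

variable (hrat : ∀ P : Place k F, RatRes k P.toValuationSubring)

/-- the value of a function at a (rational) place; junk `0` at a pole -/
def constVal (p : Place k F) (h : F) : k :=
  letI := Classical.propDecidable
  if hh : h ∈ p.toValuationSubring then
    @res k p.toValuationSubring _ _ _ _ (hrat p) ⟨h, hh⟩ else 0

theorem constVal_of_mem (p : Place k F) {h : F} (hh : h ∈ p.toValuationSubring) :
    constVal hrat p h = @res k p.toValuationSubring _ _ _ _ (hrat p) ⟨h, hh⟩ := by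
  classical
  rw [constVal, dif_pos hh]

theorem constVal_mul (p : Place k F) {h h' : F} (hh : h ∈ p.toValuationSubring)
    (hh' : h' ∈ p.toValuationSubring) :
    constVal hrat p (h * h') = constVal hrat p h * constVal hrat p h' := by
  haveI := hrat p
  rw [constVal_of_mem hrat p hh, constVal_of_mem hrat p hh',
    constVal_of_mem hrat p (p.toValuationSubring.mul_mem _ _ hh hh'), ← map_mul]
  rfl

theorem constVal_ne_zero (p : Place k F) {h : F} (h0 : h ≠ 0) (hord : p.ord h = 0) :
    constVal hrat p h ≠ 0 := by
  haveI := hrat p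
  have hh : h ∈ p.toValuationSubring := (FF.mem_iff_ord_nonneg p h).2 hord.ge
  have hh' : h⁻¹ ∈ p.toValuationSubring :=
    (FF.mem_iff_ord_nonneg p h⁻¹).2 (by rw [p.ord_inv, hord, neg_zero])
  rw [constVal_of_mem hrat p hh, res_ne_zero_iff_isUnit]
  exact IsUnit.of_mul_eq_one (⟨h⁻¹, hh'⟩ : p.toValuationSubring)
    (Subtype.ext (mul_inv_cancel₀ h0))

end ConstVal

namespace KPt

variable (hrat : ∀ P : Place k F, RatRes k P.toValuationSubring)

/-- the value of `f ∈ L(W)` at a point: `σ f` at a generic point, the value of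
`f ϖ_p ^ W(p)` at a constant point `p`. -/
def colVal (W : Divisor k F) (f : F) : KPt k F L → L
  | const p => algebraMap k L
      (constVal hrat p (f * ((chosenUniformizer p : p.toValuationSubring) : F) ^ (W p)))
  | gen σ _ => σ f

/-- the local correction factor -/
def scale (W : Divisor k F) (u : F) : KPt k F L → L
  | const p => algebraMap k L
      (constVal hrat p (u * ((chosenUniformizer p : p.toValuationSubring) : F) ^ (-(W p))))
  | gen σ _ => σ u

variable {hrat}

theorem ord_uniformizer_zpow (p : Place k F) (n : ℤ) :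
    p.ord (((chosenUniformizer p : p.toValuationSubring) : F) ^ n) = n := by
  rw [p.ord_zpow, ord_chosenUniformizer, mul_one]

theorem uniformizer_zpow_ne_zero (p : Place k F) (n : ℤ) :
    ((chosenUniformizer p : p.toValuationSubring) : F) ^ n ≠ 0 := by
  apply zpow_ne_zero
  have := (chosenUniformizer_irreducible p).ne_zero
  simpa using this

theorem scale_ne_zero (x : Place k L) (W : Divisor k F) {u : F} (hu0 : u ≠ 0) (S : KPt k F L)
    (hu : (S.red x).ord u = W (S.red x)) : S.scale hrat W u ≠ 0 := by
  cases S with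
  | const p =>
    have hu' : p.ord u = W p := hu
    show algebraMap k L _ ≠ 0
    rw [Ne, map_eq_zero]
    apply constVal_ne_zero hrat p (mul_ne_zero hu0 (uniformizer_zpow_ne_zero p _))
    rw [p.ord_mul hu0 (uniformizer_zpow_ne_zero p _), ord_uniformizer_zpow, hu']
    ring
  | gen σ hσ =>
    show σ u ≠ 0
    rwa [Ne, map_eq_zero]

theorem ord_scale (x : Place k L) (W : Divisor k F) {u : F} (S : KPt k F L)
    (hu : (S.red x).ord u = W (S.red x)) :
    x.ord (S.scale hrat W u) = W (S.red x) * locInt hrat x S (const (S.red x)) := by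
  cases S with
  | const p =>
    show x.ord (algebraMap k L _) = _
    rw [Cech.ord_const]
    show 0 = W p * locInt hrat x (const p) (const p)
    rw [locInt_self, mul_zero]
  | gen σ hσ =>
    have hu' : (x.restrictAlong σ hσ).ord u = W (x.restrictAlong σ hσ) := hu
    show x.ord (σ u) = W (x.restrictAlong σ hσ) * _
    rw [Place.ord_restrictAlong σ hσ x, hu', locInt_gen_const,
      if_pos (show x.restrictAlong σ hσ = red x (gen σ hσ) from rfl)]
    ring

theorem val_eq (x : Place k L) (W : Divisor k F) {f u : F} (hf : f ∈ riemannRochSpace W)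
    (hu0 : u ≠ 0) (S : KPt k F L) (hu : (S.red x).ord u = W (S.red x)) :
    (S.disc hrat x).val (f * u) = S.scale hrat W u * S.colVal hrat W f := by
  cases S with
  | const p =>
    have hu' : p.ord u = W p := hu
    haveI := hrat p
    set ϖ : F := ((chosenUniformizer p : p.toValuationSubring) : F) with hϖ
    have h1 : f * ϖ ^ (W p) ∈ p.toValuationSubring := by
      rw [FF.mem_iff_ord_nonneg]
      rcases eq_or_ne f 0 with h0 | h0
      · rw [h0, zero_mul, p.ord_zero]
      · rw [p.ord_mul h0 (uniformizer_zpow_ne_zero p _), ord_uniformizer_zpow]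
        have := ((mem_riemannRochSpace_iff.1 hf) p).resolve_left h0
        omega
    have h2 : u * ϖ ^ (-(W p)) ∈ p.toValuationSubring := by
      rw [FF.mem_iff_ord_nonneg, p.ord_mul hu0 (uniformizer_zpow_ne_zero p _),
        ord_uniformizer_zpow, hu']
      omega
    have h3 : f * u = (u * ϖ ^ (-(W p))) * (f * ϖ ^ (W p)) := by
      have hϖ0 : ϖ ≠ 0 := by
        have := uniformizer_zpow_ne_zero p 1
        rwa [zpow_one] at this
      rw [_root_.zpow_neg]
      field_simp
    have h4 : f * u ∈ p.toValuationSubring := by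
      rw [h3]; exact p.toValuationSubring.mul_mem _ _ h2 h1
    show ((const p : KPt k F L).disc hrat x).val (f * u) =
      algebraMap k L (constVal hrat p (u * ϖ ^ (-(W p)))) *
        algebraMap k L (constVal hrat p (f * ϖ ^ (W p)))
    rw [← map_mul, ← constVal_mul hrat p h2 h1, ← h3, DiscPt.val_of_mem _ h4,
      constVal_of_mem hrat p h4]
    rfl
  | gen σ hσ =>
    have hu' : (x.restrictAlong σ hσ).ord u = W (x.restrictAlong σ hσ) := hu
    have h4 : f * u ∈ (x.restrictAlong σ hσ).toValuationSubring := by
      rw [FF.mem_iff_ord_nonneg]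
      rcases eq_or_ne f 0 with h0 | h0
      · rw [h0, zero_mul, Place.ord_zero]
      · rw [(x.restrictAlong σ hσ).ord_mul h0 hu0, hu']
        have := ((mem_riemannRochSpace_iff.1 hf) (x.restrictAlong σ hσ)).resolve_left h0
        omega
    show ((gen σ hσ : KPt k F L).disc hrat x).val (f * u) = σ u * σ f
    rw [DiscPt.val_of_mem _ h4]
    show σ (f * u) = _
    rw [map_mul, mul_comm]

end KPt

section LocalGlobal

variable [CharZero k] (hrat : ∀ P : Place k F, RatRes k P.toValuationSubring)

/-- **the local inequality at the place `x`** -/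
theorem local_le {g' : ℕ} (hF : IsCurveOfGenus k F g') (x : Place k L) {n : ℕ}
    (Q : Fin n → KPt k F L) (hQ : Function.Injective Q) (W : Divisor k F) (f : Fin n → F)
    (hf : ∀ i, f i ∈ riemannRochSpace W)
    (hdet : (Matrix.of fun i j => (Q j).colVal hrat W (f i)).det ≠ 0) :
    ∑ j, ∑ j' ∈ Finset.Ioi j, locInt hrat x (Q j) (Q j') ≤
      x.ord (Matrix.of fun i j => (Q j).colVal hrat W (f i)).det +
        ∑ j, W ((Q j).red x) * locInt hrat x (Q j) (KPt.const ((Q j).red x)) := by
  classical
  haveI : Infinite k := Infinite.of_injective (Nat.cast : ℕ → k) Nat.cast_injective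
  -- weak approximation
  obtain ⟨u, hu0, hu⟩ := Fermat.Agent.S15lib.Weil.exists_ord_eq hF
    (Finset.univ.image fun j => (Q j).red x) (fun v => W v)
  have hup : ∀ j, ((Q j).red x).ord u = W ((Q j).red x) := fun j =>
    hu _ (Finset.mem_image_of_mem _ (Finset.mem_univ j))
  set D : Fin n → DiscPt k F x := fun j => (Q j).disc hrat x with hD
  have hDp : ∀ j, (D j).p = (Q j).red x := fun j => KPt.disc_p hrat x (Q j)
  have hh : ∀ i j, f i * u ∈ (D j).p.toValuationSubring := by
    intro i j
    rw [hDp, FF.mem_iff_ord_nonneg]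
    rcases eq_or_ne (f i) 0 with h0 | h0
    · rw [h0, zero_mul, Place.ord_zero]
    · rw [((Q j).red x).ord_mul h0 hu0, hup]
      have := ((mem_riemannRochSpace_iff.1 (hf i)) ((Q j).red x)).resolve_left h0
      omega
  have hinj : ∀ j j', (D j).p = (D j').p → (D j).coord = (D j').coord → j = j' := by
    intro j j' h1 h2
    apply hQ
    apply KPt.eq_of_red_eq_of_coord_eq hrat x
    · rw [← hDp, ← hDp, h1]
    · show (((D j).coord : x.toValuationSubring) : L) = (((D j').coord : x.toValuationSubring) : L)
      rw [h2]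
  -- the matrix of values
  have hval : (Matrix.of fun i j => (D j).val (f i * u)) =
      Matrix.of fun i j => (Q j).scale hrat W u *
        (Matrix.of fun i j => (Q j).colVal hrat W (f i)) i j := by
    ext i j
    simp only [Matrix.of_apply]
    exact KPt.val_eq x W (hf i) hu0 (Q j) (hup j)
  have hsc0 : ∀ j, (Q j).scale hrat W u ≠ 0 := fun j => KPt.scale_ne_zero x W hu0 (Q j) (hup j)
  have hprod0 : ∏ j, (Q j).scale hrat W u ≠ 0 := Finset.prod_ne_zero_iff.2 fun j _ => hsc0 j
  have hdetval : (Matrix.of fun i j => (D j).val (f i * u)).det =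
      (∏ j, (Q j).scale hrat W u) * (Matrix.of fun i j => (Q j).colVal hrat W (f i)).det := by
    rw [hval, Matrix.det_mul_row]
  have hdet' : (Matrix.of fun i j => (D j).val (f i * u)).det ≠ 0 := by
    rw [hdetval]
    exact mul_ne_zero hprod0 hdet
  have key := ord_det_ge hrat D hinj (fun i => f i * u) hh hdet'
  rw [hdetval, x.ord_mul hprod0 hdet, ord_prod x Finset.univ _ fun j _ => hsc0 j] at key
  have hL : ∀ j j', (if (D j).p = (D j').p then
      x.ord ((((D j').coord - (D j).coord : x.toValuationSubring)) : L) else 0) =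
      locInt hrat x (Q j) (Q j') := by
    intro j j'
    unfold locInt
    by_cases hc : (D j).p = (D j').p
    · rw [if_pos hc, if_pos (by rw [← hDp, ← hDp, hc])]
      rfl
    · rw [if_neg hc, if_neg (by rw [← hDp, ← hDp]; exact hc)]
  have hR : ∀ j, x.ord ((Q j).scale hrat W u) =
      W ((Q j).red x) * locInt hrat x (Q j) (KPt.const ((Q j).red x)) := fun j =>
    KPt.ord_scale x W (Q j) (hup j)
  calc ∑ j, ∑ j' ∈ Finset.Ioi j, locInt hrat x (Q j) (Q j')
      = ∑ j, ∑ j' ∈ Finset.Ioi j, (if (D j).p = (D j').p then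
          x.ord ((((D j').coord - (D j).coord : x.toValuationSubring)) : L) else 0) := by
        refine Finset.sum_congr rfl fun j _ => Finset.sum_congr rfl fun j' _ => ?_
        exact (hL j j').symm
    _ ≤ _ := by
        convert key using 2
    _ = _ := by
        rw [add_comm]
        congr 1
        exact Finset.sum_congr rfl fun j _ => hR j

theorem degree_eq_sum_of_subset (D : Divisor k L) (T : Finset (Place k L))
    (hT : D.support ⊆ T) : Divisor.degree D = ∑ v ∈ T, D v * (v.deg : ℤ) := by
  have : Divisor.degree D = D.sum fun v n => n * (v.deg : ℤ) := by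
    simp [Divisor.degree, Finsupp.liftAddHom_apply]
  rw [this]
  exact Finsupp.sum_of_support_subset D hT _ (fun v _ => zero_mul _)

/-- **(P4), general form**: the global Brill–Noether inequality. -/
theorem sum_pair_le [HasPrincipalDivisors k L] (hdegL : ∀ x : Place k L, x.deg = 1) {g' : ℕ}
    (hF : IsCurveOfGenus k F g') {n : ℕ}
    (Q : Fin n → KPt k F L) (hQ : Function.Injective Q) (W : Divisor k F) (f : Fin n → F)
    (hf : ∀ i, f i ∈ riemannRochSpace W)
    (hdet : (Matrix.of fun i j => (Q j).colVal hrat W (f i)).det ≠ 0) :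
    ∑ j, ∑ j' ∈ Finset.Ioi j, pair hrat (Q j) (Q j') ≤
      ∑ j, ∑ p ∈ W.support, W p * pair hrat (Q j) (KPt.const p) := by
  classical
  set Δ : L := (Matrix.of fun i j => (Q j).colVal hrat W (f i)).det with hΔ
  -- a finite set of places containing all the supports
  have hfin1 : ∀ j j', (Function.support fun x : Place k L =>
      locInt hrat x (Q j) (Q j')).Finite := fun j j' => locInt_support_finite' hrat _ _
  have hfin2 : ∀ j (p : Place k F), (Function.support fun x : Place k L =>
      locInt hrat x (Q j) (KPt.const p)).Finite := fun j p => locInt_support_finite' hrat _ _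
  set T : Finset (Place k L) := (divOf (K := k) Δ).support ∪
    (Finset.univ.biUnion fun j => Finset.univ.biUnion fun j' => (hfin1 j j').toFinset) ∪
    (Finset.univ.biUnion fun j => W.support.biUnion fun p => (hfin2 j p).toFinset) with hT
  have hT1 : ∀ j j', (Function.support fun x : Place k L =>
      locInt hrat x (Q j) (Q j')) ⊆ T := by
    intro j j' x hx
    rw [hT, Finset.coe_union, Finset.coe_union]
    left; right
    simp only [Finset.coe_biUnion, Finset.coe_univ, Set.mem_univ, Set.iUnion_true,
      Set.mem_iUnion, Set.Finite.coe_toFinset]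
    exact ⟨j, j', hx⟩
  have hT2 : ∀ j, ∀ p ∈ W.support, (Function.support fun x : Place k L =>
      locInt hrat x (Q j) (KPt.const p)) ⊆ T := by
    intro j p hp x hx
    rw [hT, Finset.coe_union]
    right
    simp only [Finset.coe_biUnion, Finset.coe_univ, Set.mem_univ, Set.iUnion_true,
      Set.mem_iUnion, Set.Finite.coe_toFinset]
    exact ⟨j, p, hp, hx⟩
  -- the product formula
  have hprod : ∑ x ∈ T, x.ord Δ = 0 := by
    have h0 := degree_divOf (K := k) Δ
    rw [degree_eq_sum_of_subset (divOf (K := k) Δ) T
      (by rw [hT]; exact Finset.subset_union_left.trans Finset.subset_union_left)] at h0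
    rw [← h0]
    refine Finset.sum_congr rfl fun x _ => ?_
    rw [divOf_apply', hdegL x, Nat.cast_one, mul_one]
  -- the local inequalities, summed
  have hloc : ∀ x ∈ T, ∑ j, ∑ j' ∈ Finset.Ioi j, locInt hrat x (Q j) (Q j') ≤
      x.ord Δ + ∑ j, ∑ p ∈ W.support, W p * locInt hrat x (Q j) (KPt.const p) := by
    intro x _
    refine (local_le hrat hF x Q hQ W f hf hdet).trans (le_of_eq ?_)
    congr 1
    refine Finset.sum_congr rfl fun j _ => ?_
    by_cases hp : (Q j).red x ∈ W.support
    · rw [Finset.sum_eq_single_of_mem _ hp]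
      intro p _ hne
      have : locInt hrat x (Q j) (KPt.const p) = 0 := by
        unfold locInt
        exact if_neg (fun h => hne h.symm)
      rw [this, mul_zero]
    · rw [Finsupp.notMem_support_iff.1 hp, zero_mul]
      symm
      refine Finset.sum_eq_zero fun p hp' => ?_
      have hne : (Q j).red x ≠ p := fun h => hp (h ▸ hp')
      have : locInt hrat x (Q j) (KPt.const p) = 0 := by
        unfold locInt
        exact if_neg hne
      rw [this, mul_zero]
  calc ∑ j, ∑ j' ∈ Finset.Ioi j, pair hrat (Q j) (Q j')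
      = ∑ j, ∑ j' ∈ Finset.Ioi j, ∑ x ∈ T, locInt hrat x (Q j) (Q j') := by
        refine Finset.sum_congr rfl fun j _ => Finset.sum_congr rfl fun j' _ => ?_
        exact pair_eq_sum hrat T (hT1 j j')
    _ = ∑ x ∈ T, ∑ j, ∑ j' ∈ Finset.Ioi j, locInt hrat x (Q j) (Q j') := by
        rw [Finset.sum_comm]
        refine Finset.sum_congr rfl fun j _ => ?_
        rw [Finset.sum_comm]
    _ ≤ ∑ x ∈ T, (x.ord Δ + ∑ j, ∑ p ∈ W.support, W p * locInt hrat x (Q j) (KPt.const p)) :=
        Finset.sum_le_sum hloc
    _ = ∑ x ∈ T, ∑ j, ∑ p ∈ W.support, W p * locInt hrat x (Q j) (KPt.const p) := by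
        rw [Finset.sum_add_distrib, hprod, zero_add]
    _ = ∑ j, ∑ p ∈ W.support, W p * pair hrat (Q j) (KPt.const p) := by
        rw [Finset.sum_comm]
        refine Finset.sum_congr rfl fun j _ => ?_
        rw [Finset.sum_comm]
        refine Finset.sum_congr rfl fun p hp => ?_
        rw [pair_eq_sum hrat T (hT2 j p hp), Finset.mul_sum]

/-- finiteness of a point: `L` is finite over `σ F` -/
def KPt.IsFinite : KPt k F L → Prop
  | KPt.const _ => True
  | KPt.gen σ _ => FiniteAlong k σ

theorem locInt_const_const (x : Place k L) (p q : Place k F) :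
    locInt hrat x (KPt.const q : KPt k F L) (KPt.const p) = 0 := by
  unfold locInt
  rw [KPt.coord_const, KPt.coord_const, sub_self, x.ord_zero, ite_self]

/-- the fundamental identity for a finite generic point (characteristic zero, all places of `L`
of degree one) -/
theorem fundamentalIdentityAlong_of_finite [HasPrincipalDivisors k L]
    (hdegL : ∀ x : Place k L, x.deg = 1) (σ : F →ₐ[k] L) (hσ : σ.toRingHom.IsIntegral)
    (hfin : FiniteAlong k σ) : FundamentalIdentityAlong k σ hσ := by
  letI := algebraAlong σ
  haveI := isScalarTower_along σ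
  haveI := isIntegral_along σ hσ
  haveI : Module.Finite F L := hfin
  haveI : CharZero F := charZero_of_injective_algebraMap (algebraMap k F).injective
  exact Fermat.Agent.S37lib.Tower.fundamentalIdentity (K := k) (F := F) (F' := L) hdegL

/-- **(L4)** for all points -/
theorem pair_const_eq_deg [HasPrincipalDivisors k L] (hdegL : ∀ x : Place k L, x.deg = 1)
    (S : KPt k F L) (hS : S.IsFinite) (p : Place k F) (hp : p.deg = 1) :
    pair hrat S (KPt.const p) = S.deg := by
  cases S with
  | const q =>
    show pair hrat (KPt.const q) (KPt.const p) = ((0 : ℕ) : ℤ)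
    unfold pair
    rw [Nat.cast_zero]
    exact finsum_eq_zero_of_forall_eq_zero fun x => locInt_const_const hrat x p q
  | gen σ hσ =>
    exact pair_gen_const hrat σ hσ (fundamentalIdentityAlong_of_finite hdegL σ hσ hS) hdegL p hp

/-- **(P4)**: `∑_{j<j'} (Q_j . Q_j') ≤ deg W · ∑_j deg Q_j`. -/
theorem sum_pair_le_deg [HasPrincipalDivisors k L] (hdegL : ∀ x : Place k L, x.deg = 1)
    {g' : ℕ} (hF : IsCurveOfGenus k F g') {n : ℕ}
    (Q : Fin n → KPt k F L) (hQ : Function.Injective Q) (hQfin : ∀ j, (Q j).IsFinite)
    (W : Divisor k F) (f : Fin n → F) (hf : ∀ i, f i ∈ riemannRochSpace W)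
    (hdet : (Matrix.of fun i j => (Q j).colVal hrat W (f i)).det ≠ 0) :
    ∑ j, ∑ j' ∈ Finset.Ioi j, pair hrat (Q j) (Q j') ≤
      Divisor.degree W * ∑ j, ((Q j).deg : ℤ) := by
  refine (sum_pair_le hrat hdegL hF Q hQ W f hf hdet).trans (le_of_eq ?_)
  rw [Finset.mul_sum]
  refine Finset.sum_congr rfl fun j _ => ?_
  have hdW : Divisor.degree W = ∑ p ∈ W.support, W p := by
    have : Divisor.degree W = W.sum fun v n => n * (v.deg : ℤ) := by
      simp [Divisor.degree, Finsupp.liftAddHom_apply]
    rw [this, Finsupp.sum]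
    refine Finset.sum_congr rfl fun p _ => ?_
    rw [hF.deg_eq_one p, Nat.cast_one, mul_one]
  rw [hdW, Finset.sum_mul]
  refine Finset.sum_congr rfl fun p _ => ?_
  rw [pair_const_eq_deg hrat hdegL (Q j) (hQfin j) p (hF.deg_eq_one p)]

end LocalGlobal

end Fermat.Agent.S17lib.DegChain
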