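/-
S17lib / DegChain / Dict  (helper6)  — Project G, block DEG: the DICTIONARY between `L`-points
(`KPt k F L`, `Points.lean`) and places of the constant extension `FΩ / Ω` (`L ⊆ Ω`,
`ι : F →ₐ[k] FΩ`):

  `Realizes ι S S'` :  `S' : Place Ω FΩ` is the `Ω`-point defined by the `L`-point `S`
    (constant point `p`:  `ord_{S'} (ι f) = ord_p f`;  generic point `σ`:  `(ι f)(S') = σ f`).

Consequences: the value of `ι f` at `S'` is `S.colVal` (`hasValueAt_colVal`), the value of
`ι ϖ` (`ϖ` the chosen uniformizer of the reduction of `S` at `x`) at `S'` is `S.coord`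
(`hasValueAt_coord`), and the determinant hypothesis of (P4) can be checked over `Ω`
(`det_colVal_ne_zero`).
-/
import Mathlib
import Fermat.Agent.S17lib.DegChain.BN

set_option autoImplicit false
set_option linter.unusedSectionVars false

noncomputable section

namespace Fermat.Agent.S17lib.DegChain

open AlgebraicCurve IsLocalRing
open Fermat.Agent.ProgramR.RHLocal Fermat.Agent.S18lib Fermat.Agent.ProgramR

variable {k L Ω F FΩ : Type*} [Field k] [Field L] [Field Ω] [Field F] [Field FΩ]
  [Algebra k L] [Algebra L Ω] [Algebra k Ω] [IsScalarTower k L Ω] [Algebra k F]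
  [Algebra Ω FΩ] [Algebra k FΩ] [IsScalarTower k Ω FΩ] (ι : F →ₐ[k] FΩ)

/-- the constant `a ∈ L` as a constant function of `FΩ` -/
def cΩ (Ω FΩ : Type*) [Field Ω] [Algebra L Ω] [Field FΩ] [Algebra Ω FΩ] (a : L) : FΩ :=
  algebraMap Ω FΩ (algebraMap L Ω a)

theorem cΩ_algebraMap (c : k) : cΩ Ω FΩ (algebraMap k L c) = ι (algebraMap k F c) := by
  rw [cΩ, ← IsScalarTower.algebraMap_apply k L Ω, ← IsScalarTower.algebraMap_apply k Ω FΩ,
    AlgHom.commutes]

/-- the place `S'` of `FΩ` is the `Ω`-point defined by the `L`-point `S` -/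
def Realizes (S : KPt k F L) (S' : Place Ω FΩ) : Prop :=
  match S with
  | KPt.const p => ∀ f : F, S'.ord (ι f) = p.ord f
  | KPt.gen σ _ => ∀ f : F, ι f = cΩ Ω FΩ (σ f) ∨ 0 < S'.ord (ι f - cΩ Ω FΩ (σ f))

variable {ι}

theorem Realizes.const_ord {p : Place k F} {S' : Place Ω FΩ}
    (h : Realizes ι (KPt.const p : KPt k F L) S') (f : F) : S'.ord (ι f) = p.ord f := h f

theorem Realizes.gen_val {σ : F →ₐ[k] L} {hσ : σ.toRingHom.IsIntegral} {S' : Place Ω FΩ}
    (h : Realizes ι (KPt.gen σ hσ : KPt k F L) S') (f : F) :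
    ι f = cΩ Ω FΩ (σ f) ∨ 0 < S'.ord (ι f - cΩ Ω FΩ (σ f)) := h f

variable (hrat : ∀ P : Place k F, RatRes k P.toValuationSubring)

/-- the value of a function regular at `p` -/
theorem constVal_spec (p : Place k F) {f : F} (hf : f ∈ p.toValuationSubring) :
    f = algebraMap k F (constVal hrat p f) ∨ 0 < p.ord (f - algebraMap k F (constVal hrat p f)) := by
  have := hrat p
  rw [constVal_of_mem hrat p hf]
  have hmem := sub_algebraMap_res_mem (K := k) (⟨f, hf⟩ : p.toValuationSubring)
  by_cases h0 : f - algebraMap k F (res k p.toValuationSubring ⟨f, hf⟩) = 0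
  · left
    exact sub_eq_zero.1 h0
  · right
    have := one_le_ord_of_mem_maximalIdeal hmem (fun h => h0 (congrArg Subtype.val h))
    have h2 : (((⟨f, hf⟩ : p.toValuationSubring) -
        algebraMap k p.toValuationSubring (res k p.toValuationSubring ⟨f, hf⟩) :
          p.toValuationSubring) : F) = f - algebraMap k F (res k p.toValuationSubring ⟨f, hf⟩) := rfl
    rw [h2] at this
    omega

/-- **the value of `ι f` at the `Ω`-point of `S` is `S.colVal`** (for `W` vanishing at the
constant points) -/
theorem Realizes.hasValueAt_colVal {S : KPt k F L} {S' : Place Ω FΩ} (h : Realizes ι S S')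
    (W : Divisor k F) (hW0 : ∀ p, S = KPt.const p → W p = 0) {f : F}
    (hf : f ∈ riemannRochSpace W) :
    ι f = cΩ Ω FΩ (S.colVal hrat W f) ∨ 0 < S'.ord (ι f - cΩ Ω FΩ (S.colVal hrat W f)) := by
  cases S with
  | const p =>
    have hWp : W p = 0 := hW0 p rfl
    have hfp : f ∈ p.toValuationSubring := by
      rw [FF.mem_iff_ord_nonneg]
      rcases eq_or_ne f 0 with h0 | h0
      · rw [h0, p.ord_zero]
      · have := ((mem_riemannRochSpace_iff.1 hf) p).resolve_left h0
        omega
    have hcol : (KPt.const p : KPt k F L).colVal hrat W f =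
        algebraMap k L (constVal hrat p f) := by
      show algebraMap k L (constVal hrat p (f * _ ^ (W p))) = _
      rw [hWp, zpow_zero, mul_one]
    rw [hcol, cΩ_algebraMap ι]
    rcases constVal_spec hrat p hfp with h1 | h1
    · left
      exact congrArg ι h1
    · right
      rw [← map_sub, h.const_ord]
      exact h1
  | gen σ hσ => exact h.gen_val f

/-- **the value of `ι ϖ` at the `Ω`-point of `S` is the coordinate `S.coord`**, `ϖ` the chosen
uniformizer of the reduction of `S` at `x` -/
theorem Realizes.hasValueAt_coord {S : KPt k F L} {S' : Place Ω FΩ} (h : Realizes ι S S')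
    (x : Place k L) :
    ι ((chosenUniformizer (S.red x) : (S.red x).toValuationSubring) : F) =
        cΩ Ω FΩ (S.coord hrat x) ∨
      0 < S'.ord (ι ((chosenUniformizer (S.red x) : (S.red x).toValuationSubring) : F)
        - cΩ Ω FΩ (S.coord hrat x)) := by
  cases S with
  | const p =>
    right
    rw [KPt.coord_const, cΩ, map_zero, map_zero, sub_zero, h.const_ord]
    show 0 < p.ord ((chosenUniformizer p : p.toValuationSubring) : F)
    rw [ord_chosenUniformizer]
    exact one_pos
  | gen σ hσ => exact h.gen_val _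

/-- the determinant hypothesis of (P4) can be checked over `Ω` -/
theorem det_colVal_ne_zero {n : ℕ} (Q : Fin n → KPt k F L) (W : Divisor k F) (f : Fin n → F)
    (MΩ : Matrix (Fin n) (Fin n) Ω)
    (hM : ∀ i j, MΩ i j = algebraMap L Ω ((Q j).colVal hrat W (f i))) (hdet : MΩ.det ≠ 0) :
    (Matrix.of fun i j => (Q j).colVal hrat W (f i)).det ≠ 0 := by
  intro h0
  apply hdet
  have : MΩ = (algebraMap L Ω).mapMatrix (Matrix.of fun i j => (Q j).colVal hrat W (f i)) := by
    ext i j
    rw [hM]
    rfl
  rw [this, ← RingHom.map_det, h0, map_zero]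

end Fermat.Agent.S17lib.DegChain
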