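/-
S17lib / DegChain / Chain  (helper6)  — Project G, block DEG: THE CHAIN.

From the consistency relations (P2) (`∑_S n_S (S . R) = c` for `R` a constant point, `R = η` and
`R = Q_l`, with the adjunction convention `(R . R) = -(2g-2) deg R`) for the divisor
`D = m ∑_j Q_j - η + (constant divisor of degree 1 - m g)` and the Brill–Noether inequality (P4)
`∑_{j<j'} (Q_j . Q_j') ≤ (2g-2) ∑_j deg Q_j`:

      `m² ∑_j deg Q_j ≤ g deg η`.

`chain_arith` is the pure arithmetic (`m e₃ + e₂ - (m g + 1) e₁`), `deg_bound` the statement on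
`L`-points (`Points.lean`, `BN.lean`).
-/
import Mathlib
import Fermat.Agent.S17lib.DegChain.BN

set_option autoImplicit false
set_option linter.unusedSectionVars false

noncomputable section

namespace Fermat.Agent.S17lib.DegChain

open AlgebraicCurve

/-- a double sum over ordered pairs of distinct indices of a symmetric function -/
theorem sum_erase_eq_two_mul {n : ℕ} (a : Fin n → Fin n → ℤ) (hsymm : ∀ i j, a i j = a j i) :
    ∑ l, ∑ j ∈ Finset.univ.erase l, a j l = 2 * ∑ j, ∑ j' ∈ Finset.Ioi j, a j j' := by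
  classical
  have h1 : ∀ l : Fin n, Finset.univ.erase l = Finset.Iio l ∪ Finset.Ioi l := by
    intro l
    ext j
    simp only [Finset.mem_erase, Finset.mem_univ, and_true, Finset.mem_union, Finset.mem_Iio,
      Finset.mem_Ioi]
    exact lt_or_lt_iff_ne.symm
  have h2 : ∀ l : Fin n, Disjoint (Finset.Iio l) (Finset.Ioi l) := by
    intro l
    rw [Finset.disjoint_left]
    intro j hj hj'
    exact absurd (Finset.mem_Iio.1 hj) (not_lt.2 (le_of_lt (Finset.mem_Ioi.1 hj')))
  have h3 : ∑ l, ∑ j ∈ Finset.Iio l, a j l = ∑ j, ∑ l ∈ Finset.Ioi j, a j l := by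
    rw [Finset.sum_comm' (t' := Finset.univ) (s' := fun j => Finset.Ioi j)]
    intro l j
    simp only [Finset.mem_univ, Finset.mem_Iio, Finset.mem_Ioi, true_and, and_true]
  have h4 : ∑ l, ∑ j ∈ Finset.Ioi l, a j l = ∑ l, ∑ j ∈ Finset.Ioi l, a l j :=
    Finset.sum_congr rfl fun l _ => Finset.sum_congr rfl fun j _ => hsymm j l
  calc ∑ l, ∑ j ∈ Finset.univ.erase l, a j l
      = ∑ l, (∑ j ∈ Finset.Iio l, a j l + ∑ j ∈ Finset.Ioi l, a j l) := by
        refine Finset.sum_congr rfl fun l _ => ?_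
        rw [h1 l, Finset.sum_union (h2 l)]
    _ = _ := by
        rw [Finset.sum_add_distrib, h3, h4]
        ring

/-- **the chain, pure arithmetic** -/
theorem chain_arith (g m : ℤ) {n : ℕ} (hn : (n : ℤ) = g) (θ b : Fin n → ℤ)
    (a : Fin n → Fin n → ℤ) (hsymm : ∀ i j, a i j = a j i) (δ c : ℤ)
    (h1 : m * ∑ j, θ j - δ = c)
    (h2 : m * ∑ j, b j + (2 * g - 2) * δ + (1 - m * g) * δ = c)
    (h3 : ∀ l, m * (∑ j ∈ Finset.univ.erase l, a j l - (2 * g - 2) * θ l) - b l
      + (1 - m * g) * θ l = c)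
    (h4 : ∑ j, ∑ j' ∈ Finset.Ioi j, a j j' ≤ (2 * g - 2) * ∑ j, θ j) :
    m ^ 2 * ∑ j, θ j ≤ g * δ := by
  set Θ := ∑ j, θ j with hΘ
  set β := ∑ j, b j with hβ
  set I₂ := ∑ l, ∑ j ∈ Finset.univ.erase l, a j l with hI₂
  have hI : I₂ = 2 * ∑ j, ∑ j' ∈ Finset.Ioi j, a j j' := sum_erase_eq_two_mul a hsymm
  -- the sum of the relations at the `Q_l`
  have h3s : m * (I₂ - (2 * g - 2) * Θ) - β + (1 - m * g) * Θ = g * c := by
    have := Finset.sum_congr rfl fun l (_ : l ∈ Finset.univ) => h3 l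
    rw [Finset.sum_const, Finset.card_univ, Fintype.card_fin, nsmul_eq_mul, hn] at this
    rw [← this, hI₂, hΘ, hβ]
    simp only [Finset.sum_add_distrib, Finset.sum_sub_distrib, ← Finset.mul_sum]
  have key : m ^ 2 * I₂ = m ^ 2 * (4 * g - 2) * Θ - 2 * g * δ := by
    linear_combination m * h3s + h2 - (m * g + 1) * h1
  have hle : m ^ 2 * I₂ ≤ m ^ 2 * ((4 * g - 4) * Θ) := by
    apply mul_le_mul_of_nonneg_left _ (sq_nonneg m)
    rw [hI]
    linarith
  nlinarith [hle, key]

section Points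

open Fermat.Agent.ProgramR.RHLocal Fermat.Agent.S18lib

variable {k F L : Type*} [Field k] [Field F] [Field L] [Algebra k F] [Algebra k L]
  (hrat : ∀ P : Place k F, RatRes k P.toValuationSubring)

open Classical in
/-- the pairing of `L`-points with the ADJUNCTION CONVENTION on the diagonal:
`(R . R) := -(2g - 2) deg R`. -/
def pairS (g : ℕ) (S R : KPt k F L) : ℤ :=
  if S = R then -((2 * (g : ℤ) - 2) * (S.deg : ℤ)) else pair hrat S R

theorem pairS_self (g : ℕ) (S : KPt k F L) :
    pairS hrat g S S = -((2 * (g : ℤ) - 2) * (S.deg : ℤ)) := by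
  classical
  rw [pairS, if_pos rfl]

theorem pairS_of_ne (g : ℕ) {S R : KPt k F L} (h : S ≠ R) : pairS hrat g S R = pair hrat S R := by
  classical
  rw [pairS, if_neg h]

variable [CharZero k] [HasPrincipalDivisors k L]

/-- the pairing (with the adjunction convention) with a constant point is the degree -/
theorem pairS_const (hdegL : ∀ x : Place k L, x.deg = 1) (g : ℕ) (S : KPt k F L)
    (hS : S.IsFinite) (p : Place k F) (hp : p.deg = 1) :
    pairS hrat g S (KPt.const p) = S.deg := by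
  classical
  by_cases h : S = KPt.const p
  · subst h
    rw [pairS_self]
    show -((2 * (g : ℤ) - 2) * ((0 : ℕ) : ℤ)) = ((0 : ℕ) : ℤ)
    simp
  · rw [pairS_of_ne hrat g h, pair_const_eq_deg hrat hdegL S hS p hp]

/-- **DEG**: the degree bound from the consistency relations (P2) and the Brill–Noether
inequality (P4).  `Q_1 … Q_g` are the points of the generic division divisor (constant points
allowed), `η` the tautological point, the constant part of the divisor has degree `1 - m g`. -/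
theorem deg_bound (hdegL : ∀ x : Place k L, x.deg = 1) {g : ℕ}
    (hF : IsCurveOfGenus k F g) (m : ℕ) (Q : Fin g → KPt k F L) (hQ : Function.Injective Q)
    (hQfin : ∀ j, (Q j).IsFinite) (η : F →ₐ[k] L) (hη : η.toRingHom.IsIntegral)
    (hηfin : FiniteAlong k η) (hQη : ∀ j, Q j ≠ KPt.gen η hη) (R₀ : Place k F) (c : ℤ)
    (hP2 : ∀ R : KPt k F L, (R = KPt.const R₀ ∨ R = KPt.gen η hη ∨ ∃ l, R = Q l) →
      (m : ℤ) * ∑ j, pairS hrat g (Q j) R - pairS hrat g (KPt.gen η hη) R
        + (1 - (m : ℤ) * g) * (R.deg : ℤ) = c)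
    (W : Divisor k F) (hW : Divisor.degree W = 2 * (g : ℤ) - 2) (f : Fin g → F)
    (hf : ∀ i, f i ∈ riemannRochSpace W)
    (hdet : (Matrix.of fun i j => (Q j).colVal hrat W (f i)).det ≠ 0) :
    (m : ℤ) ^ 2 * ∑ j, ((Q j).deg : ℤ) ≤ (g : ℤ) * (finrankAlong k η : ℤ) := by
  classical
  have hηF : (KPt.gen η hη : KPt k F L).IsFinite := hηfin
  refine chain_arith (g : ℤ) (m : ℤ) rfl (fun j => ((Q j).deg : ℤ))
    (fun j => pair hrat (Q j) (KPt.gen η hη)) (fun j l => pair hrat (Q j) (Q l))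
    (fun i j => pair_comm hrat _ _) (finrankAlong k η : ℤ) c ?_ ?_ ?_ ?_
  · -- the relation at the constant point
    have h := hP2 (KPt.const R₀) (Or.inl rfl)
    rw [pairS_const hrat hdegL g _ hηF R₀ (hF.deg_eq_one R₀)] at h
    rw [Finset.sum_congr rfl fun j _ =>
      pairS_const hrat hdegL g (Q j) (hQfin j) R₀ (hF.deg_eq_one R₀)] at h
    have h0 : ((KPt.const R₀ : KPt k F L).deg : ℤ) = 0 := by
      show ((0 : ℕ) : ℤ) = 0
      simp
    rw [h0, mul_zero, add_zero] at h
    exact h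
  · -- the relation at `η`
    have h := hP2 (KPt.gen η hη) (Or.inr (Or.inl rfl))
    rw [pairS_self, Finset.sum_congr rfl fun j _ => pairS_of_ne hrat g (hQη j)] at h
    have hd : ((KPt.gen η hη : KPt k F L).deg : ℤ) = (finrankAlong k η : ℤ) := rfl
    rw [hd] at h
    linarith
  · -- the relations at the `Q l`
    intro l
    have h := hP2 (Q l) (Or.inr (Or.inr ⟨l, rfl⟩))
    rw [pairS_of_ne hrat g (fun h' => hQη l h'.symm), pair_comm hrat (KPt.gen η hη) (Q l)] at h
    have hsum : ∑ j, pairS hrat g (Q j) (Q l) =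
        ∑ j ∈ Finset.univ.erase l, pair hrat (Q j) (Q l) - (2 * (g : ℤ) - 2) * ((Q l).deg : ℤ) := by
      rw [← Finset.add_sum_erase Finset.univ _ (Finset.mem_univ l), pairS_self]
      rw [Finset.sum_congr rfl fun j hj =>
        pairS_of_ne hrat g (fun h' => (Finset.ne_of_mem_erase hj) (hQ h'))]
      ring
    rw [hsum] at h
    linarith
  · -- (P4)
    have h := sum_pair_le_deg hrat hdegL hF Q hQ hQfin W f hf hdet
    rw [hW] at h
    exact h

end Points

end Fermat.Agent.S17lib.DegChain
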