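/-
S17lib / DegChain / Global  (helper6)  — Project G, block DEG: the GLOBAL consistency relation
(P2) from its local form.

Data: finitely many pairwise distinct `L`-points `pts i` with multiplicities `n i` (the divisor of a
function `φ` on the curve over `Ω ⊇ L`), a constant reference point `r₀` outside the support,
a point `R` of the support (or with `n R = 0`), elements `lam R, lam₀ ∈ L^×` (the leading
coefficient of `φ` at `R` with respect to `τ`, and the value of `φ` at `r₀`) and a divisor `Wτ`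
(`= div (dτ)`) such that AT EVERY PLACE `x` of `L`

  `ord_x (lam R) - ord_x lam₀ + n R · Wτ(R(x)) · i_x(R, R(x))
      = ∑_i n i · i_x(pts i, R) - ∑_i n i · i_x(pts i, r₀)`     (local (P2); `i_x(R, R) = 0`)

Then (product formula on `L`, (L4), `deg Wτ = 2g - 2`):

  `∑_i n i · pairS (pts i) R = ∑_i n i · deg (pts i)`                                   (`consistency`)

(the right-hand side does not depend on `R`).
-/
import Mathlib
import Fermat.Agent.S17lib.DegChain.Chain
import Fermat.Agent.S17lib.DegChain.P2Stmt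

set_option autoImplicit false
set_option linter.unusedSectionVars false

noncomputable section

namespace Fermat.Agent.S17lib.DegChain

open AlgebraicCurve
open Fermat.Agent.ProgramR.RHLocal Fermat.Agent.S18lib

variable {k F L : Type*} [Field k] [Field F] [Field L] [Algebra k F] [Algebra k L]
  (hrat : ∀ P : Place k F, RatRes k P.toValuationSubring)

/-- only the reduction of `S` at `x` contributes -/
theorem sum_mul_locInt_const (W : Divisor k F) (x : Place k L) (S : KPt k F L) :
    ∑ p ∈ W.support, W p * locInt hrat x S (KPt.const p) =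
      W (S.red x) * locInt hrat x S (KPt.const (S.red x)) := by
  classical
  by_cases hp : S.red x ∈ W.support
  · rw [Finset.sum_eq_single_of_mem _ hp]
    intro p _ hne
    have : locInt hrat x S (KPt.const p) = 0 := by
      unfold locInt
      exact if_neg (fun h => hne h.symm)
    rw [this, mul_zero]
  · rw [Finsupp.notMem_support_iff.1 hp, zero_mul]
    refine Finset.sum_eq_zero fun p hp' => ?_
    have hne : S.red x ≠ p := fun h => hp (h ▸ hp')
    have : locInt hrat x S (KPt.const p) = 0 := by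
      unfold locInt
      exact if_neg hne
    rw [this, mul_zero]

variable [CharZero k] [HasPrincipalDivisors k L]

/-- the product formula on `L` -/
theorem sum_ord_eq_zero (hdegL : ∀ x : Place k L, x.deg = 1) (a : L) (T : Finset (Place k L))
    (hT : (divOf (K := k) a).support ⊆ T) : ∑ x ∈ T, x.ord a = 0 := by
  have h0 := degree_divOf (K := k) a
  rw [degree_eq_sum_of_subset (divOf (K := k) a) T hT] at h0
  rw [← h0]
  refine Finset.sum_congr rfl fun x _ => ?_
  rw [divOf_apply', hdegL x, Nat.cast_one, mul_one]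

/-- **the global consistency relation (P2)** from its local form -/
theorem consistency (hdegL : ∀ x : Place k L, x.deg = 1) {g : ℕ} (hF : IsCurveOfGenus k F g)
    {I : Type*} [Fintype I] [DecidableEq I] (pts : I → KPt k F L) (hpts : Function.Injective pts)
    (hfin : ∀ i, (pts i).IsFinite) (n : I → ℤ) (r₀ : Place k F) (Wτ : Divisor k F)
    (hW : Divisor.degree Wτ = 2 * (g : ℤ) - 2) (lam lam₀ : L) (R : I)
    (hloc : ∀ x : Place k L, x.ord lam - x.ord lam₀ +
        n R * Wτ ((pts R).red x) * locInt hrat x (pts R) (KPt.const ((pts R).red x)) =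
      ∑ i, n i * locInt hrat x (pts i) (pts R)
        - ∑ i, n i * locInt hrat x (pts i) (KPt.const r₀)) :
    ∑ i, n i * pairS hrat g (pts i) (pts R) = ∑ i, n i * ((pts i).deg : ℤ) := by
  classical
  replace hloc : ∀ x : Place k L, x.ord lam - x.ord lam₀ +
        n R * Wτ ((pts R).red x) * locInt hrat x (pts R) (KPt.const ((pts R).red x)) =
      ∑ i ∈ Finset.univ.erase R, n i * locInt hrat x (pts i) (pts R)
        - ∑ i, n i * locInt hrat x (pts i) (KPt.const r₀) := by
    intro x
    rw [hloc x, ← Finset.add_sum_erase Finset.univ _ (Finset.mem_univ R), locInt_self, mul_zero,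
      zero_add]
  -- a finite set of places containing all supports
  have hfin1 : ∀ S S' : KPt k F L, (Function.support fun x : Place k L =>
      locInt hrat x S S').Finite := fun S S' => locInt_support_finite' hrat S S'
  set T : Finset (Place k L) := (divOf (K := k) lam).support ∪ (divOf (K := k) lam₀).support ∪
    (Finset.univ.biUnion fun i => (hfin1 (pts i) (pts R)).toFinset) ∪
    (Finset.univ.biUnion fun i => (hfin1 (pts i) (KPt.const r₀)).toFinset) ∪
    (Wτ.support.biUnion fun p => (hfin1 (pts R) (KPt.const p)).toFinset) with hT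
  have hT1 : (divOf (K := k) lam).support ⊆ T := by
    intro x hx
    simp only [hT, Finset.mem_union]
    exact Or.inl (Or.inl (Or.inl (Or.inl hx)))
  have hT2 : (divOf (K := k) lam₀).support ⊆ T := by
    intro x hx
    simp only [hT, Finset.mem_union]
    exact Or.inl (Or.inl (Or.inl (Or.inr hx)))
  have hT3 : ∀ i, (Function.support fun x : Place k L => locInt hrat x (pts i) (pts R)) ⊆ T := by
    intro i x hx
    simp only [hT, Finset.coe_union, Set.mem_union]
    refine Or.inl (Or.inl (Or.inr ?_))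
    simp only [Finset.coe_biUnion, Finset.coe_univ, Set.mem_univ, Set.iUnion_true,
      Set.mem_iUnion, Set.Finite.coe_toFinset]
    exact ⟨i, hx⟩
  have hT4 : ∀ i, (Function.support fun x : Place k L =>
      locInt hrat x (pts i) (KPt.const r₀)) ⊆ T := by
    intro i x hx
    simp only [hT, Finset.coe_union, Set.mem_union]
    refine Or.inl (Or.inr ?_)
    simp only [Finset.coe_biUnion, Finset.coe_univ, Set.mem_univ, Set.iUnion_true,
      Set.mem_iUnion, Set.Finite.coe_toFinset]
    exact ⟨i, hx⟩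
  have hT5 : ∀ p ∈ Wτ.support, (Function.support fun x : Place k L =>
      locInt hrat x (pts R) (KPt.const p)) ⊆ T := by
    intro p hp x hx
    simp only [hT, Finset.coe_union, Set.mem_union]
    refine Or.inr ?_
    simp only [Finset.coe_biUnion, Set.mem_iUnion, Set.Finite.coe_toFinset]
    exact ⟨p, hp, hx⟩
  -- sum the local relations
  have hsum := Finset.sum_congr rfl fun x (_ : x ∈ T) => hloc x
  simp only [Finset.sum_add_distrib, Finset.sum_sub_distrib] at hsum
  rw [sum_ord_eq_zero hdegL lam T hT1, sum_ord_eq_zero hdegL lam₀ T hT2] at hsum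
  -- the adjunction term
  have hadj : ∑ x ∈ T, n R * Wτ ((pts R).red x) *
      locInt hrat x (pts R) (KPt.const ((pts R).red x)) =
      n R * ((2 * (g : ℤ) - 2) * ((pts R).deg : ℤ)) := by
    have h1 : ∀ x ∈ T, n R * Wτ ((pts R).red x) *
        locInt hrat x (pts R) (KPt.const ((pts R).red x)) =
        n R * ∑ p ∈ Wτ.support, Wτ p * locInt hrat x (pts R) (KPt.const p) := by
      intro x _
      rw [sum_mul_locInt_const, mul_assoc]
    rw [Finset.sum_congr rfl h1, ← Finset.mul_sum, Finset.sum_comm]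
    congr 1
    have h2 : ∀ p ∈ Wτ.support, ∑ x ∈ T, Wτ p * locInt hrat x (pts R) (KPt.const p) =
        Wτ p * ((pts R).deg : ℤ) := by
      intro p hp
      rw [← Finset.mul_sum, ← pair_eq_sum hrat T (hT5 p hp),
        pair_const_eq_deg hrat hdegL (pts R) (hfin R) p (hF.deg_eq_one p)]
    rw [Finset.sum_congr rfl h2, ← Finset.sum_mul, ← hW]
    congr 1
    have : Divisor.degree Wτ = Wτ.sum fun v n => n * (v.deg : ℤ) := by
      simp [Divisor.degree, Finsupp.liftAddHom_apply]
    rw [this, Finsupp.sum]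
    refine Finset.sum_congr rfl fun p _ => ?_
    rw [hF.deg_eq_one p, Nat.cast_one, mul_one]
  rw [hadj] at hsum
  -- the two sums of pairings
  have hA : ∑ x ∈ T, ∑ i ∈ Finset.univ.erase R, n i * locInt hrat x (pts i) (pts R) =
      ∑ i ∈ Finset.univ.erase R, n i * pair hrat (pts i) (pts R) := by
    rw [Finset.sum_comm]
    refine Finset.sum_congr rfl fun i _ => ?_
    rw [← Finset.mul_sum, ← pair_eq_sum hrat T (hT3 i)]
  have hB : ∑ x ∈ T, ∑ i, n i * locInt hrat x (pts i) (KPt.const r₀) =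
      ∑ i, n i * ((pts i).deg : ℤ) := by
    rw [Finset.sum_comm]
    refine Finset.sum_congr rfl fun i _ => ?_
    rw [← Finset.mul_sum, ← pair_eq_sum hrat T (hT4 i),
      pair_const_eq_deg hrat hdegL (pts i) (hfin i) r₀ (hF.deg_eq_one r₀)]
  rw [hA, hB] at hsum
  -- conclusion
  rw [← Finset.add_sum_erase Finset.univ _ (Finset.mem_univ R), pairS_self,
    Finset.sum_congr rfl fun i hi =>
      show n i * pairS hrat g (pts i) (pts R) = n i * pair hrat (pts i) (pts R) by
        rw [pairS_of_ne hrat g (fun h => (Finset.ne_of_mem_erase hi) (hpts h))]]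
  linarith

section Special

variable {g : ℕ}

/-- the points of the divisor `m ∑_j Q_j - η + ∑_{p ∈ Cst} β p · p` -/
def dpts (Q : Fin g → KPt k F L) (η : F →ₐ[k] L) (hη : η.toRingHom.IsIntegral)
    (Cst : Finset (Place k F)) : Fin g ⊕ (Unit ⊕ {p // p ∈ Cst}) → KPt k F L
  | Sum.inl j => Q j
  | Sum.inr (Sum.inl _) => KPt.gen η hη
  | Sum.inr (Sum.inr p) => KPt.const p.1

/-- the multiplicities of the divisor `m ∑_j Q_j - η + ∑_{p ∈ Cst} β p · p` -/
def dmult (m : ℕ) (β : Place k F → ℤ) (Cst : Finset (Place k F)) :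
    Fin g ⊕ (Unit ⊕ {p // p ∈ Cst}) → ℤ
  | Sum.inl _ => m
  | Sum.inr (Sum.inl _) => -1
  | Sum.inr (Sum.inr p) => β p.1

theorem sum_dpts (m : ℕ) (β : Place k F → ℤ) (Q : Fin g → KPt k F L) (η : F →ₐ[k] L)
    (hη : η.toRingHom.IsIntegral) (Cst : Finset (Place k F)) (Φ : KPt k F L → ℤ) :
    ∑ i, dmult (g := g) m β Cst i * Φ (dpts Q η hη Cst i) =
      (m : ℤ) * ∑ j, Φ (Q j) - Φ (KPt.gen η hη) + ∑ p ∈ Cst, β p * Φ (KPt.const p) := by
  rw [Fintype.sum_sum_type, Fintype.sum_sum_type]
  simp only [dmult, dpts, Finset.univ_unique, Finset.sum_singleton]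
  rw [← Finset.mul_sum, Finset.sum_coe_sort Cst fun p => β p * Φ (KPt.const p)]
  ring

theorem dpts_injective (Q : Fin g → KPt k F L) (hQ : Function.Injective Q) (η : F →ₐ[k] L)
    (hη : η.toRingHom.IsIntegral) (hQη : ∀ j, Q j ≠ KPt.gen η hη) (Cst : Finset (Place k F))
    (hQC : ∀ j, ∀ p ∈ Cst, Q j ≠ KPt.const p) : Function.Injective (dpts Q η hη Cst) := by
  intro a b hab
  rcases a with j | (u | p) <;> rcases b with j' | (u' | p')
  · exact congrArg Sum.inl (hQ hab)
  · exact absurd hab (hQη j)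
  · exact absurd hab (hQC j p'.1 p'.2)
  · exact absurd hab.symm (hQη j')
  · rfl
  · exact absurd hab (by simp [dpts])
  · exact absurd hab.symm (hQC j' p.1 p.2)
  · exact absurd hab (by simp [dpts])
  · have : p.1 = p'.1 := by
      simp only [dpts] at hab
      exact KPt.const.inj hab
    exact congrArg Sum.inr (congrArg Sum.inr (Subtype.ext this))

/-- **DEG from the LOCAL (P2) and (P4)**: the divisor `m ∑_j Q_j - η + ∑_{p ∈ Cst} β p · p`
(`∑ β = 1 - m g`) is the divisor of a function whose leading coefficients at the non-constant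
points of its support (`lam`) and value at the constant point `r₀` (`lam₀`) lie in `L` and satisfy
the local relation at every place `x` of `L`. -/
theorem deg_bound_of_local (hdegL : ∀ x : Place k L, x.deg = 1)
    (hF : IsCurveOfGenus k F g) (m : ℕ) (Q : Fin g → KPt k F L) (hQ : Function.Injective Q)
    (hQfin : ∀ j, (Q j).IsFinite) (η : F →ₐ[k] L) (hη : η.toRingHom.IsIntegral)
    (hηfin : FiniteAlong k η) (hQη : ∀ j, Q j ≠ KPt.gen η hη)
    (Cst : Finset (Place k F)) (β : Place k F → ℤ) (hβ : ∑ p ∈ Cst, β p = 1 - (m : ℤ) * g)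
    (hQC : ∀ j, ∀ p ∈ Cst, Q j ≠ KPt.const p) (r₀ : Place k F)
    (Wτ : Divisor k F) (hWτ : Divisor.degree Wτ = 2 * (g : ℤ) - 2)
    (hlocal : ∀ (R : KPt k F L) (nR : ℤ),
      ((R = KPt.gen η hη ∧ nR = -1) ∨ ∃ l, R = Q l ∧ nR = m) → (∀ p, R ≠ KPt.const p) →
      ∃ lam lam₀ : L, ∀ x : Place k L,
        x.ord lam - x.ord lam₀ + nR * Wτ (R.red x) * locInt hrat x R (KPt.const (R.red x)) =
          ((m : ℤ) * ∑ j, locInt hrat x (Q j) R - locInt hrat x (KPt.gen η hη) R
            + ∑ p ∈ Cst, β p * locInt hrat x (KPt.const p) R)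
          - ((m : ℤ) * ∑ j, locInt hrat x (Q j) (KPt.const r₀)
            - locInt hrat x (KPt.gen η hη) (KPt.const r₀)
            + ∑ p ∈ Cst, β p * locInt hrat x (KPt.const p) (KPt.const r₀)))
    (W : Divisor k F) (hW : Divisor.degree W = 2 * (g : ℤ) - 2) (f : Fin g → F)
    (hf : ∀ i, f i ∈ riemannRochSpace W)
    (hdet : (Matrix.of fun i j => (Q j).colVal hrat W (f i)).det ≠ 0) :
    (m : ℤ) ^ 2 * ∑ j, ((Q j).deg : ℤ) ≤ (g : ℤ) * (finrankAlong k η : ℤ) := by
  classical
  have hηF : (KPt.gen η hη : KPt k F L).IsFinite := hηfin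
  have hdη : ((KPt.gen η hη : KPt k F L).deg : ℤ) = (finrankAlong k η : ℤ) := rfl
  refine deg_bound hrat hdegL hF m Q hQ hQfin η hη hηfin hQη r₀
    ((m : ℤ) * ∑ j, ((Q j).deg : ℤ) - (finrankAlong k η : ℤ)) ?_ W hW f hf hdet
  intro R hR
  -- constant points are trivial
  by_cases hRc : ∃ p, R = KPt.const p
  · obtain ⟨q, rfl⟩ := hRc
    rw [pairS_const hrat hdegL g _ hηF q (hF.deg_eq_one q),
      Finset.sum_congr rfl fun j _ => pairS_const hrat hdegL g (Q j) (hQfin j) q (hF.deg_eq_one q)]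
    have h0 : ((KPt.const q : KPt k F L).deg : ℤ) = 0 := by
      show ((0 : ℕ) : ℤ) = 0
      simp
    rw [h0, hdη]
    ring
  · push Not at hRc
    -- the index and multiplicity of `R`
    obtain ⟨i₀, nR, hi₀, hnR, hcase⟩ : ∃ (i₀ : Fin g ⊕ (Unit ⊕ {p // p ∈ Cst})) (nR : ℤ),
        dpts Q η hη Cst i₀ = R ∧ dmult (g := g) m β Cst i₀ = nR ∧
        ((R = KPt.gen η hη ∧ nR = -1) ∨ ∃ l, R = Q l ∧ nR = m) := by
      rcases hR with h | h | ⟨l, h⟩
      · exact absurd h (hRc r₀)
      · exact ⟨Sum.inr (Sum.inl ()), -1, h.symm, rfl, Or.inl ⟨h, rfl⟩⟩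
      · exact ⟨Sum.inl l, m, h.symm, rfl, Or.inr ⟨l, h, rfl⟩⟩
    obtain ⟨lam, lam₀, hl⟩ := hlocal R nR hcase hRc
    have hfinpts : ∀ i, (dpts Q η hη Cst i).IsFinite := by
      rintro (j | (u | p))
      · exact hQfin j
      · exact hηF
      · exact trivial
    have key := consistency hrat hdegL hF (dpts Q η hη Cst)
      (dpts_injective Q hQ η hη hQη Cst hQC) hfinpts (dmult (g := g) m β Cst) r₀ Wτ hWτ lam lam₀ i₀
      (by
        intro x
        rw [hi₀, hnR, sum_dpts m β Q η hη Cst fun S => locInt hrat x S R,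
          sum_dpts m β Q η hη Cst fun S => locInt hrat x S (KPt.const r₀)]
        exact hl x)
    rw [hi₀, sum_dpts m β Q η hη Cst fun S => pairS hrat g S R,
      sum_dpts m β Q η hη Cst fun S => ((S.deg : ℕ) : ℤ)] at key
    -- the constant part
    have hc1 : ∑ p ∈ Cst, β p * pairS hrat g (KPt.const p) R =
        (1 - (m : ℤ) * g) * (R.deg : ℤ) := by
      rw [← hβ, Finset.sum_mul]
      refine Finset.sum_congr rfl fun p _ => ?_
      rw [pairS_of_ne hrat g (fun h => hRc p h.symm), pair_comm]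
      have hRfin : R.IsFinite := by
        rcases hcase with ⟨h, -⟩ | ⟨l, h, -⟩
        · rw [h]; exact hηF
        · rw [h]; exact hQfin l
      rw [pair_const_eq_deg hrat hdegL R hRfin p (hF.deg_eq_one p)]
    have hc2 : ∑ p ∈ Cst, β p * (((KPt.const p : KPt k F L).deg : ℕ) : ℤ) = 0 := by
      refine Finset.sum_eq_zero fun p _ => ?_
      show β p * ((0 : ℕ) : ℤ) = 0
      simp
    rw [hc1, hc2, hdη] at key
    linarith

/-- **DEG from the local (P2) in the form `LocalP2`** (for the family `dpts`, `dmult`) and (P4). -/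
theorem deg_bound_of_localP2 (hdegL : ∀ x : Place k L, x.deg = 1)
    (hF : IsCurveOfGenus k F g) (m : ℕ) (Q : Fin g → KPt k F L) (hQ : Function.Injective Q)
    (hQfin : ∀ j, (Q j).IsFinite) (η : F →ₐ[k] L) (hη : η.toRingHom.IsIntegral)
    (hηfin : FiniteAlong k η) (hQη : ∀ j, Q j ≠ KPt.gen η hη)
    (Cst : Finset (Place k F)) (β : Place k F → ℤ) (hβ : ∑ p ∈ Cst, β p = 1 - (m : ℤ) * g)
    (hQC : ∀ j, ∀ p ∈ Cst, Q j ≠ KPt.const p) (r₀ : Place k F)
    (Wτ : Divisor k F) (hWτ : Divisor.degree Wτ = 2 * (g : ℤ) - 2)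
    (hlocal : ∀ i₀ : Fin g ⊕ (Unit ⊕ {p // p ∈ Cst}),
      (i₀ = Sum.inr (Sum.inl ()) ∨ ∃ l, i₀ = Sum.inl l) →
      (∀ p, dpts Q η hη Cst i₀ ≠ KPt.const p) →
      ∃ lam lam₀ : L, ∀ x : Place k L,
        LocalP2 hrat x (dpts Q η hη Cst) (dmult (g := g) m β Cst) i₀ r₀ Wτ lam lam₀)
    (W : Divisor k F) (hW : Divisor.degree W = 2 * (g : ℤ) - 2) (f : Fin g → F)
    (hf : ∀ i, f i ∈ riemannRochSpace W)
    (hdet : (Matrix.of fun i j => (Q j).colVal hrat W (f i)).det ≠ 0) :
    (m : ℤ) ^ 2 * ∑ j, ((Q j).deg : ℤ) ≤ (g : ℤ) * (finrankAlong k η : ℤ) := by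
  classical
  refine deg_bound_of_local hrat hdegL hF m Q hQ hQfin η hη hηfin hQη Cst β hβ hQC r₀ Wτ hWτ ?_
    W hW f hf hdet
  intro R nR hcase hRc
  obtain ⟨i₀, hi₀, hnR, hidx⟩ : ∃ i₀ : Fin g ⊕ (Unit ⊕ {p // p ∈ Cst}),
      dpts Q η hη Cst i₀ = R ∧ dmult (g := g) m β Cst i₀ = nR ∧
      (i₀ = Sum.inr (Sum.inl ()) ∨ ∃ l, i₀ = Sum.inl l) := by
    rcases hcase with ⟨h, h'⟩ | ⟨l, h, h'⟩
    · exact ⟨Sum.inr (Sum.inl ()), h.symm, h'.symm, Or.inl rfl⟩
    · exact ⟨Sum.inl l, h.symm, h'.symm, Or.inr ⟨l, rfl⟩⟩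
  obtain ⟨lam, lam₀, hl⟩ := hlocal i₀ hidx (by rw [hi₀]; exact hRc)
  refine ⟨lam, lam₀, fun x => ?_⟩
  have := hl x
  unfold LocalP2 at this
  rw [hi₀, hnR, sum_dpts m β Q η hη Cst fun S => locInt hrat x S R,
    sum_dpts m β Q η hη Cst fun S => locInt hrat x S (KPt.const r₀)] at this
  exact this

end Special

end Fermat.Agent.S17lib.DegChain
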