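/-
S17lib / DegChain / Move  (helper6)  — Project G, block DEG: moving a divisor `W₀` (with a family
of independent sections) off a finite set of places:  `W = W₀ - div u`, `f i = f₀ i * u`, with
`ord_p u = W₀ p` on the finite set (weak approximation).  Used to make the canonical divisor
vanish at the constant points among the nodes of the Brill–Noether determinant.
-/
import Mathlib
import Fermat.Agent.S15lib.Weil.Moving
import Fermat.Agent.S18lib.Setup.DivLemmas

set_option autoImplicit false
set_option linter.unusedSectionVars false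

noncomputable section

namespace Fermat.Agent.S17lib.DegChain

open AlgebraicCurve Fermat.Agent.S18lib

variable {k F : Type*} [Field k] [Field F] [Algebra k F]

theorem exists_moved_sections [Infinite k] {g' : ℕ} (hF : IsCurveOfGenus k F g')
    (W₀ : Divisor k F) {n : ℕ} (f₀ : Fin n → F) (hf₀ : ∀ i, f₀ i ∈ riemannRochSpace W₀)
    (hli : LinearIndependent k f₀) (S : Finset (Place k F)) :
    ∃ (W : Divisor k F) (f : Fin n → F), Divisor.degree W = Divisor.degree W₀ ∧
      (∀ i, f i ∈ riemannRochSpace W) ∧ LinearIndependent k f ∧ ∀ p ∈ S, W p = 0 := by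
  have := hF.hasPrincipalDivisors
  obtain ⟨u, hu0, hu⟩ := Fermat.Agent.S15lib.Weil.exists_ord_eq hF S (fun v => W₀ v)
  refine ⟨W₀ - divOf (K := k) u, fun i => f₀ i * u, ?_, ?_, ?_, ?_⟩
  · rw [map_sub, degree_divOf, sub_zero]
  · intro i
    rw [mem_riemannRochSpace_iff]
    intro v
    show f₀ i * u = 0 ∨ -(W₀ - divOf (K := k) u) v ≤ v.ord (f₀ i * u)
    rcases eq_or_ne (f₀ i) 0 with h0 | h0
    · left; rw [h0, zero_mul]
    · right
      rw [v.ord_mul h0 hu0, Finsupp.sub_apply, divOf_apply']
      have := ((mem_riemannRochSpace_iff.1 (hf₀ i)) v).resolve_left h0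
      omega
  · have hinj : Function.Injective (LinearMap.mulRight k u) := fun a b hab =>
      mul_right_cancel₀ hu0 hab
    exact hli.map' (LinearMap.mulRight k u) (LinearMap.ker_eq_bot.2 hinj)
  · intro p hp
    rw [Finsupp.sub_apply, divOf_apply', hu p hp, sub_self]

end Fermat.Agent.S17lib.DegChain
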