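/-
S17lib / DegChain / Half  (helper6)  — Project G, block DEG: the ABSTRACT HALF of the degree
bound, in the vocabulary of `Points.lean` / `Dict.lean` only (no valuation ring of `Ω`, no
constant reduction).

* `P2Oracle ι hrat x I φ τ Wτ` : the local relation (P2) at the place `x` of `L`, for all families
  of points indexed by `I` (= the conclusion of `P2loc.localP2_of_realizes` with the local setup
  at `x` discharged);
* `deg_half_core` : the degree bound for `g` points `Q : Fin g → KPt k F L` realized by the places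
  `Qpl j` of `FΩ`, from the divisor of `φ`, the `Ω`-level non-speciality `ℓ(∑ Qpl j) = 1` and the
  oracle;
* `deg_half` : the same in the shape of the output of the division datum: `d` generic points
  `σ j` (places `Q' j`) and a reduced constant divisor `E₀` (`d + deg E₀ = g`), conclusion
  `m ^ 2 * ∑ j, finrankAlong k (σ j) ≤ g * finrankAlong k η`.
-/
import Mathlib
import Fermat.Agent.S17lib.DegChain.Global
import Fermat.Agent.S17lib.DegChain.Move
import Fermat.Agent.S17lib.CanDiff.Transport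
import Fermat.Agent.S15lib.Weil.Eval

set_option autoImplicit false
set_option linter.unusedSectionVars false

noncomputable section

namespace Fermat.Agent.S17lib.DegChain

open AlgebraicCurve
open Fermat.Agent.ProgramR.RHLocal Fermat.Agent.S18lib Fermat.Agent.ProgramR
open Fermat.Agent.S15lib.Weil

variable {k L Ω F FΩ : Type*} [Field k] [Field L] [Field Ω] [Field F] [Field FΩ]
  [Algebra k L] [Algebra L Ω] [Algebra k Ω] [IsScalarTower k L Ω] [Algebra k F]
  [Algebra Ω FΩ] [Algebra k FΩ] [IsScalarTower k Ω FΩ] (ι : F →ₐ[k] FΩ)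
  (hrat : ∀ P : Place k F, RatRes k P.toValuationSubring) [RatPlaces Ω FΩ]

variable (Ω) in
/-- **the local (P2) oracle at the place `x`**: for every family `pts` of `L`-points indexed by
`I`, realized by pairwise distinct places `pl i` carrying the divisor `∑ n i · pl i` of `φ`, every
non-constant point `R` of the family and every constant point `r₀` off the support, the local
relation `LocalP2` holds for the leading coefficient `lam` of `φ` at `R` (with respect to `τ`)
and the value `lam₀` of `φ` at `r₀`. -/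
def P2Oracle (x : Place k L) (I : Type*) [Fintype I] (φ : FΩ) (τ : F) (Wτ : Divisor k F) : Prop :=
  ∀ (pts : I → KPt k F L) (pl : I → Place Ω FΩ), Function.Injective pl →
    (∀ i, Realizes ι (pts i) (pl i)) → ∀ n : I → ℤ, (∀ i, (pl i).ord φ = n i) →
    (∀ P : Place Ω FΩ, (∀ i, pl i ≠ P) → P.ord φ = 0) →
    ∀ (R : I) (σ : F →ₐ[k] L) (hσ : σ.toRingHom.IsIntegral), pts R = KPt.gen σ hσ →
    ∀ (r₀ : Place k F) (R₀' : Place Ω FΩ), Realizes ι (KPt.const r₀ : KPt k F L) R₀' →
    (∀ i, pl i ≠ R₀') → ∀ lam lam₀ : L,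
    algebraMap L Ω lam = val (pl R) (φ * (ι τ - cΩ Ω FΩ (σ τ)) ^ (-(n R))) →
    algebraMap L Ω lam₀ = val R₀' φ → LocalP2 hrat x pts n R r₀ Wτ lam lam₀

variable [HasPrincipalDivisors k L] [CharZero k] {g : ℕ}

/-- **the abstract DEG half, core form** (`g` points `Q j`, realized by the places `Qpl j`). -/
theorem deg_half_core (hdegL : ∀ x : Place k L, x.deg = 1)
    (hF : IsCurveOfGenus k F g) (hFΩ : IsCurveOfGenus Ω FΩ g) (m : ℕ)
    -- the `g` points
    (Q : Fin g → KPt k F L) (hQ : Function.Injective Q) (hQfin : ∀ j, (Q j).IsFinite)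
    (Qpl : Fin g → Place Ω FΩ) (hQpl : Function.Injective Qpl)
    (hQR : ∀ j, Realizes ι (Q j) (Qpl j))
    -- the generic point
    (η : F →ₐ[k] L) (hη : η.toRingHom.IsIntegral) (hηfin : FiniteAlong k η)
    (hQη : ∀ j, Q j ≠ KPt.gen η hη) (η' : Place Ω FΩ)
    (hη'R : Realizes ι (KPt.gen η hη : KPt k F L) η') (hQplη : ∀ j, Qpl j ≠ η')
    -- the constant places
    (cst : Place k F → Place Ω FΩ) (hcst : Function.Injective cst)
    (hcstR : ∀ p, Realizes ι (KPt.const p : KPt k F L) (cst p))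
    (hgen : ∀ P : Place Ω FΩ, P ∉ Set.range cst → ∀ f : F, f ≠ 0 → P.ord (ι f) = 0)
    (hη'c : η' ∉ Set.range cst)
    (hQconst : ∀ j p, Q j = KPt.const p → Qpl j = cst p)
    (hQgen : ∀ j σ hσ, Q j = KPt.gen σ hσ → Qpl j ∉ Set.range cst)
    -- the constant part of the divisor
    (Cst : Finset (Place k F)) (β : Place k F → ℤ) (hβ : ∑ p ∈ Cst, β p = 1 - (m : ℤ) * g)
    (hQC : ∀ j, ∀ p ∈ Cst, Q j ≠ KPt.const p)
    (r₀ : Place k F) (hr₀C : r₀ ∉ Cst) (hr₀Q : ∀ j, Q j ≠ KPt.const r₀)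
    -- the function
    (φ : FΩ) (hdivQ : ∀ j, (Qpl j).ord φ = m) (hdivη : η'.ord φ = -1)
    (hdivC : ∀ p ∈ Cst, (cst p).ord φ = β p)
    (hdiv₂ : ∀ P : Place Ω FΩ, (∀ j, Qpl j ≠ P) → η' ≠ P → (∀ p ∈ Cst, cst p ≠ P) →
      P.ord φ = 0)
    -- the differential
    (τ : F) (Wτ : Divisor k F) (hWτ : Divisor.degree Wτ = 2 * (g : ℤ) - 2)
    -- rationality of the leading coefficients
    (hlamQ : ∀ l σ hσ, Q l = KPt.gen σ hσ → ∃ lam : L,
      algebraMap L Ω lam = val (Qpl l) (φ * (ι τ - cΩ Ω FΩ (σ τ)) ^ (-(m : ℤ))))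
    (hlamη : ∃ lam : L, algebraMap L Ω lam = val η' (φ * (ι τ - cΩ Ω FΩ (η τ)) ^ (-(-1 : ℤ))))
    (hlam₀ : ∃ lam₀ : L, algebraMap L Ω lam₀ = val (cst r₀) φ)
    -- the local oracle
    (horacle : ∀ x : Place k L,
      P2Oracle Ω ι hrat x (Fin g ⊕ (Unit ⊕ {p // p ∈ Cst})) φ τ Wτ)
    -- the canonical sections
    (W : Divisor k F) (hW : Divisor.degree W = 2 * (g : ℤ) - 2) (f : Fin g → F)
    (hf : ∀ i, f i ∈ riemannRochSpace W) (hW0 : ∀ j p, Q j = KPt.const p → W p = 0)
    (hliΩ : LinearIndependent Ω fun i => ι (f i))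
    (hlE : Module.finrank Ω
      (riemannRochSpace (∑ j, Finsupp.single (Qpl j) (1 : ℤ) : Divisor Ω FΩ)) = 1) :
    (m : ℤ) ^ 2 * ∑ j, ((Q j).deg : ℤ) ≤ (g : ℤ) * (finrankAlong k η : ℤ) := by
  classical
  -- (P4): the determinant
  have hord : ∀ p f, (cst p).ord ((ι : F →+* FΩ) f) = p.ord f := fun p f => (hcstR p) f
  have hdet : (Matrix.of fun i j => (Q j).colVal hrat W (f i)).det ≠ 0 := by
    refine det_colVal_ne_zero (Ω := Ω) hrat Q W f
      (Matrix.of fun i j => algebraMap L Ω ((Q j).colVal hrat W (f i))) (fun i j => rfl) ?_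
    refine CanDiff.det_ne_zero hFΩ (W := CanDiff.pushDiv cst W)
      (by rw [CanDiff.degree_pushDiv hF hFΩ, hW]) (fun i => ι (f i))
      (fun i => CanDiff.map_mem_riemannRochSpace_pushDiv (ι : F →+* FΩ) hcst hord hgen (hf i))
      hliΩ Qpl hQpl ?_ hlE _ ?_
    · intro j
      cases hj : Q j with
      | const p =>
        rw [hQconst j p hj, CanDiff.pushDiv_apply_cst hcst, hW0 j p hj]
      | gen σ hσ =>
        rw [CanDiff.pushDiv_apply_of_notMem W (hQgen j σ hσ hj)]
    · intro i j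
      exact (hQR j).hasValueAt_colVal hrat W (hW0 j) (hf i)
  -- (P2): the local relations
  refine deg_bound_of_localP2 hrat hdegL hF m Q hQ hQfin η hη hηfin hQη Cst β hβ hQC r₀ Wτ hWτ
    ?_ W hW f hf hdet
  intro i₀ hi₀ hnc
  set pl : Fin g ⊕ (Unit ⊕ {p // p ∈ Cst}) → Place Ω FΩ :=
    Sum.elim Qpl (Sum.elim (fun _ => η') fun p => cst p.1) with hpl
  have hreal : ∀ i, Realizes ι (dpts Q η hη Cst i) (pl i) := by
    rintro (j | (u | p))
    · exact hQR j
    · exact hη'R
    · exact hcstR p.1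
  have hQplC : ∀ j, ∀ p, Qpl j = cst p → Q j = KPt.const p := by
    intro j p hjp
    cases hj : Q j with
    | const p' =>
      have := hQconst j p' hj
      rw [hjp] at this
      rw [hcst this]
    | gen σ hσ => exact absurd ⟨p, hjp.symm⟩ (hQgen j σ hσ hj)
  have hplinj : Function.Injective pl := by
    intro a b hab
    rcases a with j | (u | p) <;> rcases b with j' | (u' | p')
    · exact congrArg Sum.inl (hQpl hab)
    · exact absurd hab (hQplη j)
    · exact absurd (hQplC j p'.1 hab) (hQC j p'.1 p'.2)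
    · exact absurd hab.symm (hQplη j')
    · rfl
    · exact absurd ⟨p'.1, hab.symm⟩ hη'c
    · exact absurd (hQplC j' p.1 hab.symm) (hQC j' p.1 p.2)
    · exact absurd ⟨p.1, hab⟩ hη'c
    · exact congrArg Sum.inr (congrArg Sum.inr (Subtype.ext (hcst hab)))
  have hd₁ : ∀ i, (pl i).ord φ = dmult (g := g) m β Cst i := by
    rintro (j | (u | p))
    · exact hdivQ j
    · exact hdivη
    · exact hdivC p.1 p.2
  have hd₂ : ∀ P : Place Ω FΩ, (∀ i, pl i ≠ P) → P.ord φ = 0 := by
    intro P hP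
    exact hdiv₂ P (fun j => hP (Sum.inl j)) (hP (Sum.inr (Sum.inl ())))
      fun p hp => hP (Sum.inr (Sum.inr ⟨p, hp⟩))
  have hR₀ : ∀ i, pl i ≠ cst r₀ := by
    rintro (j | (u | p))
    · exact fun h => hr₀Q j (hQplC j r₀ h)
    · exact fun h => hη'c ⟨r₀, h.symm⟩
    · exact fun h => hr₀C (hcst h ▸ p.2)
  obtain ⟨lam₀, hl₀⟩ := hlam₀
  -- the point `R = pts i₀` is generic
  obtain ⟨σ, hσ, hR, lam, hl⟩ : ∃ (σ : F →ₐ[k] L) (hσ : σ.toRingHom.IsIntegral),
      dpts Q η hη Cst i₀ = KPt.gen σ hσ ∧ ∃ lam : L, algebraMap L Ω lam =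
        val (pl i₀) (φ * (ι τ - cΩ Ω FΩ (σ τ)) ^ (-(dmult (g := g) m β Cst i₀))) := by
    rcases hi₀ with rfl | ⟨l, rfl⟩
    · exact ⟨η, hη, rfl, hlamη⟩
    · cases hl : Q l with
      | const p => exact absurd hl (hnc p)
      | gen σ hσ => exact ⟨σ, hσ, hl, hlamQ l σ hσ hl⟩
  refine ⟨lam, lam₀, fun x => ?_⟩
  exact horacle x (dpts Q η hη Cst) pl hplinj hreal (dmult (g := g) m β Cst) hd₁ hd₂ i₀ σ hσ hR
    r₀ (cst r₀) (hcstR r₀) hR₀ lam lam₀ hl hl₀

/-! ### The split form -/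

theorem sum_single_apply_self {α : Type*} {d : ℕ} (Q' : Fin d → α) (hQ' : Function.Injective Q')
    (i : Fin d) : (∑ j, Finsupp.single (Q' j) (1 : ℤ)) (Q' i) = 1 := by
  classical
  rw [Finsupp.finsetSum_apply, Finset.sum_eq_single i]
  · rw [Finsupp.single_eq_same]
  · intro j _ hji
    rw [Finsupp.single_apply, if_neg fun h => hji (hQ' h)]
  · intro h
    exact absurd (Finset.mem_univ i) h

theorem sum_single_apply_of_ne {α : Type*} {d : ℕ} (Q' : Fin d → α) {P : α}
    (hP : ∀ j, Q' j ≠ P) : (∑ j, Finsupp.single (Q' j) (1 : ℤ)) P = 0 := by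
  classical
  rw [Finsupp.finsetSum_apply]
  refine Finset.sum_eq_zero fun j _ => ?_
  rw [Finsupp.single_apply, if_neg (hP j)]

theorem degree_eq_sum_support (hF : IsCurveOfGenus k F g) (D : Divisor k F) :
    Divisor.degree D = ∑ p ∈ D.support, D p := by
  rw [degree_eq_sum_of_subset D D.support (Finset.Subset.refl _)]
  refine Finset.sum_congr rfl fun p _ => ?_
  rw [hF.deg_eq_one p, Nat.cast_one, mul_one]

/-- **the abstract DEG half** in the shape of the division datum: `d` generic points `σ j`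
(realized by the non-constant places `Q' j`), a reduced effective constant divisor `E₀` with
`deg E₀ + d = g`, a constant divisor `B₀` of degree `g`, and
`div φ = m (∑ Q' j + cst_* (E₀ - B₀)) - η' + cst inf`. -/
theorem deg_half (hdegL : ∀ x : Place k L, x.deg = 1)
    (hF : IsCurveOfGenus k F g) (hFΩ : IsCurveOfGenus Ω FΩ g) (m : ℕ)
    -- the generic points
    {d : ℕ} (σ : Fin d → F →ₐ[k] L) (hσ : ∀ j, (σ j).toRingHom.IsIntegral)
    (hσfin : ∀ j, FiniteAlong k (σ j)) (hσinj : Function.Injective σ)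
    (η : F →ₐ[k] L) (hη : η.toRingHom.IsIntegral) (hηfin : FiniteAlong k η)
    (hση : ∀ j, σ j ≠ η)
    -- the constant places
    (cst : Place k F → Place Ω FΩ) (hcst : Function.Injective cst)
    (hcstR : ∀ p, Realizes ι (KPt.const p : KPt k F L) (cst p))
    (hgen : ∀ P : Place Ω FΩ, P ∉ Set.range cst → ∀ f : F, f ≠ 0 → P.ord (ι f) = 0)
    -- the places of the generic points
    (Q' : Fin d → Place Ω FΩ) (hQ' : Function.Injective Q') (hQ'c : ∀ j, Q' j ∉ Set.range cst)
    (hQ'R : ∀ j, Realizes ι (KPt.gen (σ j) (hσ j) : KPt k F L) (Q' j))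
    (η' : Place Ω FΩ) (hη'R : Realizes ι (KPt.gen η hη : KPt k F L) η')
    (hη'c : η' ∉ Set.range cst) (hQ'η' : ∀ j, Q' j ≠ η')
    -- the constant divisors
    (E₀ B₀ : Divisor k F) (inf : Place k F) (hE₀nn : 0 ≤ E₀) (hE₀1 : ∀ p, E₀ p ≤ 1)
    (hE₀deg : Divisor.degree E₀ + d = g) (hB₀deg : Divisor.degree B₀ = g)
    (hBE : ∀ p, B₀ p ≠ 0 → E₀ p = 0) (hE₀inf : E₀ inf = 0)
    (hlE : Module.finrank Ω (riemannRochSpace
      ((∑ j, Finsupp.single (Q' j) (1 : ℤ) : Divisor Ω FΩ) + Finsupp.mapDomain cst E₀)) = 1)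
    -- the function
    (φ : FΩ)
    (hdiv : ∀ P : Place Ω FΩ, P.ord φ =
      (m : ℤ) * ((∑ j, Finsupp.single (Q' j) (1 : ℤ) : Divisor Ω FΩ) P
        + (Finsupp.mapDomain cst (E₀ - B₀) : Divisor Ω FΩ) P)
      - (Finsupp.single η' (1 : ℤ) - Finsupp.single (cst inf) (1 : ℤ) : Divisor Ω FΩ) P)
    -- the differential and the base point
    (τ : F) (Wτ : Divisor k F) (hWτ : Divisor.degree Wτ = 2 * (g : ℤ) - 2)
    (r₀ : Place k F) (hr₀E : E₀ r₀ = 0) (hr₀B : B₀ r₀ = 0) (hr₀inf : r₀ ≠ inf)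
    -- rationality of the leading coefficients
    (hlam : ∀ j, ∃ lam : L,
      algebraMap L Ω lam = val (Q' j) (φ * (ι τ - cΩ Ω FΩ (σ j τ)) ^ (-(m : ℤ))))
    (hlamη : ∃ lam : L, algebraMap L Ω lam = val η' (φ * (ι τ - cΩ Ω FΩ (η τ))))
    (hlam₀ : ∃ lam₀ : L, algebraMap L Ω lam₀ = val (cst r₀) φ)
    -- the local oracle
    (horacle : ∀ (x : Place k L) (Cst : Finset (Place k F)),
      P2Oracle Ω ι hrat x (Fin g ⊕ (Unit ⊕ {p // p ∈ Cst})) φ τ Wτ)
    -- the canonical sections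
    (W₀ : Divisor k F) (hW₀ : Divisor.degree W₀ = 2 * (g : ℤ) - 2) (f₀ : Fin g → F)
    (hf₀ : ∀ i, f₀ i ∈ riemannRochSpace W₀) (hli : LinearIndependent k f₀)
    (hld : ∀ v : Fin g → F, LinearIndependent k v → LinearIndependent Ω fun i => ι (v i)) :
    (m : ℤ) ^ 2 * ∑ j, (finrankAlong k (σ j) : ℤ) ≤ (g : ℤ) * (finrankAlong k η : ℤ) := by
  classical
  -- the constant nodes
  set Ecst : Finset (Place k F) := E₀.support with hEcst
  have hE₀one : ∀ p ∈ Ecst, E₀ p = 1 := by
    intro p hp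
    have h1 : E₀ p ≠ 0 := Finsupp.mem_support_iff.1 hp
    have h2 : 0 ≤ E₀ p := hE₀nn p
    have h3 := hE₀1 p
    omega
  have hcardE : (Ecst.card : ℤ) = Divisor.degree E₀ := by
    rw [degree_eq_sum_support hF E₀, Finset.sum_congr rfl hE₀one]
    simp
  -- the index equivalence
  have hcard : Fintype.card (Fin d ⊕ {p // p ∈ Ecst}) = g := by
    rw [Fintype.card_sum, Fintype.card_fin, Fintype.card_coe]
    have : (Ecst.card : ℤ) + d = g := by rw [hcardE]; exact hE₀deg
    omega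
  set e : Fin g ≃ Fin d ⊕ {p // p ∈ Ecst} := (Fintype.equivFinOfCardEq hcard).symm with he
  set QJ : Fin d ⊕ {p // p ∈ Ecst} → KPt k F L :=
    Sum.elim (fun i => KPt.gen (σ i) (hσ i)) fun p => KPt.const p.1 with hQJ
  set PJ : Fin d ⊕ {p // p ∈ Ecst} → Place Ω FΩ := Sum.elim Q' fun p => cst p.1 with hPJ
  -- the moved canonical sections
  have : Infinite k := inferInstance
  obtain ⟨W, f, hWdeg, hf, hlif, hWE⟩ := exists_moved_sections hF W₀ f₀ hf₀ hli Ecst
  -- the constant part of the divisor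
  set Cst : Finset (Place k F) := B₀.support ∪ {inf} with hCst
  set β : Place k F → ℤ := fun p => -(m : ℤ) * B₀ p + if p = inf then 1 else 0 with hβdef
  have hinfC : inf ∈ Cst := Finset.mem_union_right _ (Finset.mem_singleton_self inf)
  have hE₀C : ∀ p ∈ Cst, E₀ p = 0 := by
    intro p hp
    rcases Finset.mem_union.1 hp with h | h
    · exact hBE p (Finsupp.mem_support_iff.1 h)
    · rw [Finset.mem_singleton.1 h]; exact hE₀inf
  have hdisj : ∀ p ∈ Ecst, p ∉ Cst := by
    intro p hp hpC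
    have := hE₀one p hp
    rw [hE₀C p hpC] at this
    exact zero_ne_one this
  have hβ : ∑ p ∈ Cst, β p = 1 - (m : ℤ) * g := by
    have h1 : ∑ p ∈ Cst, B₀ p = Divisor.degree B₀ := by
      rw [degree_eq_sum_support hF B₀]
      symm
      refine Finset.sum_subset Finset.subset_union_left fun p _ hp => ?_
      exact Finsupp.notMem_support_iff.1 hp
    have h2 : ∑ p ∈ Cst, (if p = inf then (1 : ℤ) else 0) = 1 := by
      rw [Finset.sum_ite_eq' Cst inf, if_pos hinfC]
    simp only [hβdef]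
    rw [Finset.sum_add_distrib, ← Finset.mul_sum, h1, h2, hB₀deg]
    ring
  have hr₀C : r₀ ∉ Cst := by
    intro h
    rcases Finset.mem_union.1 h with h | h
    · exact Finsupp.mem_support_iff.1 h hr₀B
    · exact hr₀inf (Finset.mem_singleton.1 h)
  have hr₀E' : r₀ ∉ Ecst := fun h => Finsupp.mem_support_iff.1 h hr₀E
  -- facts about the index type
  have hQJinj : Function.Injective QJ := by
    rintro (i | p) (i' | p') h
    · simp only [hQJ, Sum.elim_inl] at h
      exact congrArg Sum.inl (hσinj (KPt.gen.inj h))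
    · simp [hQJ] at h
    · simp [hQJ] at h
    · simp only [hQJ, Sum.elim_inr] at h
      exact congrArg Sum.inr (Subtype.ext (KPt.const.inj h))
  have hPJinj : Function.Injective PJ := by
    rintro (i | p) (i' | p') h
    · exact congrArg Sum.inl (hQ' h)
    · exact absurd ⟨p'.1, h.symm⟩ (hQ'c i)
    · exact absurd ⟨p.1, h⟩ (hQ'c i')
    · exact congrArg Sum.inr (Subtype.ext (hcst h))
  have hfinJ : ∀ a, (QJ a).IsFinite := by
    rintro (i | p)
    · exact hσfin i
    · exact trivial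
  have hRJ : ∀ a, Realizes ι (QJ a) (PJ a) := by
    rintro (i | p)
    · exact hQ'R i
    · exact hcstR p.1
  have hηJ : ∀ a, QJ a ≠ KPt.gen η hη := by
    rintro (i | p) h
    · exact hση i (KPt.gen.inj h)
    · simp [hQJ] at h
  have hη'J : ∀ a, PJ a ≠ η' := by
    rintro (i | p) h
    · exact hQ'η' i h
    · exact hη'c ⟨p.1, h⟩
  have hconstJ : ∀ a p, QJ a = KPt.const p → PJ a = cst p ∧ p ∈ Ecst := by
    rintro (i | p') p h
    · simp [hQJ] at h
    · have : p'.1 = p := KPt.const.inj h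
      subst this
      exact ⟨rfl, p'.2⟩
  have hgenJ : ∀ a σ' hσ', QJ a = KPt.gen σ' hσ' → PJ a ∉ Set.range cst ∧
      ∃ i, a = Sum.inl i ∧ σ i = σ' := by
    rintro (i | p') σ' hσ' h
    · exact ⟨hQ'c i, i, rfl, KPt.gen.inj h⟩
    · simp [hQJ] at h
  -- the values of the divisor of `φ`
  have hmapc : ∀ (D : Divisor k F) (p : Place k F),
      (Finsupp.mapDomain cst D : Divisor Ω FΩ) (cst p) = D p :=
    fun D p => Finsupp.mapDomain_apply hcst D p
  have hmapn : ∀ (D : Divisor k F) (P : Place Ω FΩ), P ∉ Set.range cst →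
      (Finsupp.mapDomain cst D : Divisor Ω FΩ) P = 0 :=
    fun D P hP => Finsupp.mapDomain_of_notMem_range D P hP
  have hB₀E : ∀ p ∈ Ecst, B₀ p = 0 := by
    intro p hp
    by_contra h
    have := hE₀one p hp
    rw [hBE p h] at this
    exact zero_ne_one this
  have hordQ' : ∀ i, (Q' i).ord φ = m := by
    intro i
    rw [hdiv, sum_single_apply_self Q' hQ' i, hmapn _ _ (hQ'c i), Finsupp.sub_apply,
      Finsupp.single_apply, if_neg (hQ'η' i).symm, Finsupp.single_apply,
      if_neg fun h => hQ'c i ⟨inf, h⟩]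
    ring
  have hordE : ∀ p ∈ Ecst, (cst p).ord φ = m := by
    intro p hp
    have hpinf : p ≠ inf := fun h => hdisj p hp (h ▸ hinfC)
    rw [hdiv, sum_single_apply_of_ne Q' (fun j h => hQ'c j ⟨p, h.symm⟩), hmapc,
      Finsupp.sub_apply, Finsupp.sub_apply, hE₀one p hp, hB₀E p hp,
      Finsupp.single_apply, if_neg fun h => hη'c ⟨p, h.symm⟩, Finsupp.single_apply,
      if_neg fun h => hpinf (hcst h).symm]
    ring
  have hordη : η'.ord φ = -1 := by
    rw [hdiv, sum_single_apply_of_ne Q' hQ'η', hmapn _ _ hη'c, Finsupp.sub_apply,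
      Finsupp.single_eq_same, Finsupp.single_apply, if_neg fun h => hη'c ⟨inf, h⟩]
    ring
  have hordC : ∀ p ∈ Cst, (cst p).ord φ = β p := by
    intro p hp
    rw [hdiv, sum_single_apply_of_ne Q' (fun j h => hQ'c j ⟨p, h.symm⟩), hmapc,
      Finsupp.sub_apply, Finsupp.sub_apply, hE₀C p hp,
      Finsupp.single_apply, if_neg fun h => hη'c ⟨p, h.symm⟩, Finsupp.single_apply]
    simp only [hβdef]
    by_cases hpi : p = inf
    · rw [if_pos hpi, if_pos (by rw [hpi])]
      ring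
    · rw [if_neg hpi, if_neg fun h => hpi (hcst h).symm]
      ring
  have hord0 : ∀ P : Place Ω FΩ, (∀ a, PJ a ≠ P) → η' ≠ P → (∀ p ∈ Cst, cst p ≠ P) →
      P.ord φ = 0 := by
    intro P hP hPη hPC
    have h1 : (Finsupp.mapDomain cst (E₀ - B₀) : Divisor Ω FΩ) P = 0 := by
      by_cases hPr : P ∈ Set.range cst
      · obtain ⟨p, rfl⟩ := hPr
        rw [hmapc, Finsupp.sub_apply]
        have hpE : p ∉ Ecst := fun h => hP (Sum.inr ⟨p, h⟩) rfl
        have hpB : p ∉ B₀.support := fun h => hPC p (Finset.mem_union_left _ h) rfl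
        rw [Finsupp.notMem_support_iff.1 hpE, Finsupp.notMem_support_iff.1 hpB, sub_zero]
      · exact hmapn _ _ hPr
    rw [hdiv, sum_single_apply_of_ne Q' (fun j => hP (Sum.inl j)), h1, Finsupp.sub_apply,
      Finsupp.single_apply, if_neg hPη, Finsupp.single_apply, if_neg (hPC inf hinfC)]
    ring
  have hordJ : ∀ a, (PJ a).ord φ = m := by
    rintro (i | p)
    · exact hordQ' i
    · exact hordE p.1 p.2
  -- the sum of the point divisors, the sum of the degrees
  have hsumPJ : (∑ j : Fin g, Finsupp.single (PJ (e j)) (1 : ℤ) : Divisor Ω FΩ) =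
      (∑ j, Finsupp.single (Q' j) (1 : ℤ) : Divisor Ω FΩ) + Finsupp.mapDomain cst E₀ := by
    rw [Equiv.sum_comp e (fun a => (Finsupp.single (PJ a) (1 : ℤ) : Divisor Ω FΩ)),
      Fintype.sum_sum_type]
    congr 1
    rw [Finsupp.mapDomain, Finsupp.sum,
      ← Finset.sum_coe_sort E₀.support (fun p => (Finsupp.single (cst p) (E₀ p) : Divisor Ω FΩ))]
    refine Finset.sum_congr rfl fun p _ => ?_
    rw [hE₀one p.1 p.2]
    rfl
  have hsumdeg : ∑ j : Fin g, ((QJ (e j)).deg : ℤ) = ∑ j, (finrankAlong k (σ j) : ℤ) := by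
    rw [Equiv.sum_comp e (fun a => ((QJ a).deg : ℤ)), Fintype.sum_sum_type]
    have h0 : ∑ a₂ : {p // p ∈ Ecst}, ((QJ (Sum.inr a₂)).deg : ℤ) = 0 :=
      Finset.sum_eq_zero fun p _ => by
        show ((0 : ℕ) : ℤ) = 0
        simp
    rw [h0, add_zero]
    rfl
  have hlamη' : ∃ lam : L,
      algebraMap L Ω lam = val η' (φ * (ι τ - cΩ Ω FΩ (η τ)) ^ (-(-1 : ℤ))) := by
    obtain ⟨lam, h⟩ := hlamη
    exact ⟨lam, by rw [h, neg_neg, zpow_one]⟩
  have hlamQ : ∀ l σ' hσ', QJ (e l) = KPt.gen σ' hσ' → ∃ lam : L,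
      algebraMap L Ω lam = val (PJ (e l)) (φ * (ι τ - cΩ Ω FΩ (σ' τ)) ^ (-(m : ℤ))) := by
    intro l σ' hσ' h
    obtain ⟨-, i, hi, rfl⟩ := hgenJ (e l) σ' hσ' h
    rw [hi]
    exact hlam i
  have key := deg_half_core ι hrat hdegL hF hFΩ m (fun j => QJ (e j))
    (hQJinj.comp e.injective) (fun j => hfinJ (e j)) (fun j => PJ (e j))
    (hPJinj.comp e.injective) (fun j => hRJ (e j)) η hη hηfin (fun j => hηJ (e j)) η' hη'R
    (fun j => hη'J (e j)) cst hcst hcstR hgen hη'c (fun j p h => (hconstJ (e j) p h).1)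
    (fun j σ' hσ' h => (hgenJ (e j) σ' hσ' h).1) Cst β hβ
    (fun j p hp h => hdisj p (hconstJ (e j) p h).2 hp) r₀ hr₀C
    (fun j h => hr₀E' (hconstJ (e j) r₀ h).2) φ (fun j => hordJ (e j)) hordη hordC
    (fun P hP hPη hPC => hord0 P
      (fun a => by
        have := hP (e.symm a)
        rwa [e.apply_symm_apply] at this) hPη hPC)
    τ Wτ hWτ hlamQ hlamη' hlam₀ (fun x => horacle x Cst) W (hWdeg.trans hW₀) f hf
    (fun j p h => hWE p (hconstJ (e j) p h).2) (hld f hlif) (by rw [hsumPJ]; exact hlE)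
  rw [hsumdeg] at key
  exact key

end Fermat.Agent.S17lib.DegChain
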