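/-
S17lib / DegChain / P2Stmt  (helper6)  — Project G, block DEG: the STATEMENT of the local
consistency relation (P2) at one place `x` of `L`, in the vocabulary of `Points.lean`.

`pts i` (`i : I`) are the pairwise distinct `L`-points of the support of a function `φ` on the
curve over `Ω ⊇ L`, `n i = ord_{pts i} φ`; `R : I` is a NON-CONSTANT point of the family (with
`n R` arbitrary, `0` allowed), `r₀` a constant point outside the support; `lam ∈ L` is the leading
coefficient of `φ` at `R` with respect to `τ ∈ F`, i.e. the value at `R` of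
`φ · (ι τ - τ(R)) ^ (- n R)`, `lam₀ ∈ L` the value of `φ` at `r₀`, and `Wτ = div (dτ)`
(`Wτ p = ord_p (τ - τ(p)) - 1` resp. `ord_p τ - 1` at the poles of `τ`).
-/
import Mathlib
import Fermat.Agent.S17lib.DegChain.Dict

set_option autoImplicit false
set_option linter.unusedSectionVars false

noncomputable section

namespace Fermat.Agent.S17lib.DegChain

open AlgebraicCurve
open Fermat.Agent.ProgramR.RHLocal

variable {k F L : Type*} [Field k] [Field F] [Field L] [Algebra k F] [Algebra k L]

/-- **the local relation (P2) at the place `x`**: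
`ord_x lam - ord_x lam₀ + n_R · Wτ(R(x)) · i_x(R, R(x)) = ∑_i n_i · i_x(pts i, R) - ∑_i n_i · i_x(pts i, r₀)`
(`i_x (R, R) = 0`, so the first sum is over the points different from `R`). -/
def LocalP2 (hrat : ∀ P : Place k F, RatRes k P.toValuationSubring) (x : Place k L)
    {I : Type*} [Fintype I] (pts : I → KPt k F L) (n : I → ℤ) (R : I) (r₀ : Place k F)
    (Wτ : Divisor k F) (lam lam₀ : L) : Prop :=
  x.ord lam - x.ord lam₀ +
      n R * Wτ ((pts R).red x) * locInt hrat x (pts R) (KPt.const ((pts R).red x)) =
    ∑ i, n i * locInt hrat x (pts i) (pts R) - ∑ i, n i * locInt hrat x (pts i) (KPt.const r₀)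

end Fermat.Agent.S17lib.DegChain
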